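import Mathlib
import Fermat.Prelude.Def_GaloisRep_DeformationCondition

set_option autoImplicit false

namespace Fermat.Agent.S53

open IsLocalRing GaloisRep

/-- Abstract rigid deformation problem in matrix form (interface between tracks T2 and T3). -/
structure RigidProblem (𝒪 : Type) [CommRing 𝒪] [IsLocalRing 𝒪] (G : Type) where
  /-- an entrywise set-theoretic lift of the residual matrices -/
  rbt : G → Matrix (Fin 2) (Fin 2) 𝒪
  /-- rigid deformations of type `𝒟` over a local `𝒪`-algebra -/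
  Rig : ∀ (A : Type) [CommRing A] [IsLocalRing A] [Algebra 𝒪 A],
    (G → Matrix (Fin 2) (Fin 2) A) → Prop
  residual : ∀ {A : Type} [CommRing A] [IsLocalRing A] [Algebra 𝒪 A]
    {r : G → Matrix (Fin 2) (Fin 2) A}, IsArtinianTestAlgebra 𝒪 A → Rig A r →
    ∀ g i j, r g i j - algebraMap 𝒪 A (rbt g i j) ∈ maximalIdeal A
  map : ∀ {A B : Type} [CommRing A] [IsLocalRing A] [Algebra 𝒪 A]
    [CommRing B] [IsLocalRing B] [Algebra 𝒪 B],
    IsArtinianTestAlgebra 𝒪 A → IsArtinianTestAlgebra 𝒪 B →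
    ∀ (φ : A →ₐ[𝒪] B) {r : G → Matrix (Fin 2) (Fin 2) A},
      Rig A r → Rig B (fun g => (r g).map φ)
  of_injective : ∀ {A B : Type} [CommRing A] [IsLocalRing A] [Algebra 𝒪 A]
    [CommRing B] [IsLocalRing B] [Algebra 𝒪 B],
    IsArtinianTestAlgebra 𝒪 A → IsArtinianTestAlgebra 𝒪 B →
    ∀ (φ : A →ₐ[𝒪] B), Function.Injective φ → ∀ {r : G → Matrix (Fin 2) (Fin 2) A},
      Rig B (fun g => (r g).map φ) → Rig A r
  of_fibreProduct : ∀ {A B C P : Type} [CommRing A] [IsLocalRing A] [Algebra 𝒪 A]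
    [CommRing B] [IsLocalRing B] [Algebra 𝒪 B] [CommRing C] [IsLocalRing C] [Algebra 𝒪 C]
    [CommRing P] [IsLocalRing P] [Algebra 𝒪 P],
    IsArtinianTestAlgebra 𝒪 A → IsArtinianTestAlgebra 𝒪 B → IsArtinianTestAlgebra 𝒪 C →
    IsArtinianTestAlgebra 𝒪 P →
    ∀ (f : A →ₐ[𝒪] C) (g : B →ₐ[𝒪] C) (pA : P →ₐ[𝒪] A) (pB : P →ₐ[𝒪] B),
      f.comp pA = g.comp pB →
      Function.Injective (fun x => (pA x, pB x)) →
      (∀ a b, f a = g b → ∃ x, pA x = a ∧ pB x = b) →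
      ∀ {r : G → Matrix (Fin 2) (Fin 2) P},
        Rig A (fun g => (r g).map pA) → Rig B (fun g => (r g).map pB) → Rig P r
  base : Rig (ResidueField 𝒪) (fun g => (rbt g).map (algebraMap 𝒪 (ResidueField 𝒪)))
  tangent_finite : ∀ (inst : Algebra 𝒪 (DualNumber (ResidueField 𝒪))),
    (∀ a : 𝒪, @algebraMap 𝒪 (DualNumber (ResidueField 𝒪)) _ _ inst a =
      TrivSqZeroExt.inl (IsLocalRing.residue 𝒪 a)) →
    Set.Finite {r : G → Matrix (Fin 2) (Fin 2) (DualNumber (ResidueField 𝒪)) |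
      @Rig (DualNumber (ResidueField 𝒪)) _ _ inst r}

end Fermat.Agent.S53
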