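import Mathlib
import Fermat.Prelude.Def_GaloisRep_DeformationCondition
import Fermat.Agent.S53.ProblemDef

set_option autoImplicit false

namespace Fermat.Agent.S53

open IsLocalRing GaloisRep MvPolynomial

variable {𝒪 : Type} [CommRing 𝒪] [IsLocalRing 𝒪] {G : Type}

/-- The tautological polynomial ring. -/
abbrev TautRing (𝒪 : Type) [CommRing 𝒪] (G : Type) : Type :=
  MvPolynomial (G × Fin 2 × Fin 2) 𝒪

/-- The tautological matrix family over a quotient of the tautological ring. -/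
noncomputable def tautMat (I : Ideal (TautRing 𝒪 G)) :
    G → Matrix (Fin 2) (Fin 2) (TautRing 𝒪 G ⧸ I) :=
  fun g => Matrix.of fun i j => Ideal.Quotient.mk I (X (g, i, j))

/-- Evaluation of the tautological ring at a matrix family. -/
noncomputable def evMat {A : Type} [CommRing A] [Algebra 𝒪 A]
    (r : G → Matrix (Fin 2) (Fin 2) A) : TautRing 𝒪 G →ₐ[𝒪] A :=
  aeval fun p : G × Fin 2 × Fin 2 => r p.1 p.2.1 p.2.2

omit [IsLocalRing 𝒪] in
@[simp] lemma evMat_X {A : Type} [CommRing A] [Algebra 𝒪 A]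
    (r : G → Matrix (Fin 2) (Fin 2) A) (g : G) (i j : Fin 2) :
    evMat r (X (g, i, j) : TautRing 𝒪 G) = r g i j := by
  simp [evMat]

/-- The residue map of the tautological ring. -/
noncomputable def resS (pb : RigidProblem 𝒪 G) : TautRing 𝒪 G →ₐ[𝒪] ResidueField 𝒪 :=
  evMat fun g => (pb.rbt g).map (algebraMap 𝒪 (ResidueField 𝒪))

/-- The maximal ideal of the tautological ring cut out by the residual representation. -/
noncomputable def MM (pb : RigidProblem 𝒪 G) : Ideal (TautRing 𝒪 G) :=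
  RingHom.ker (resS pb)

namespace Lvl

section Basic

variable (pb : RigidProblem 𝒪 G)

lemma mem_MM {s : TautRing 𝒪 G} : s ∈ MM pb ↔ resS pb s = 0 := RingHom.mem_ker

lemma resS_C (a : 𝒪) : resS pb (C a) = residue 𝒪 a := by
  rw [resS, evMat, aeval_C]
  rfl

lemma resS_surjective : Function.Surjective (resS pb) := by
  intro c
  obtain ⟨a, rfl⟩ := Ideal.Quotient.mk_surjective c
  exact ⟨C a, resS_C pb a⟩

instance MM_isMaximal : (MM pb).IsMaximal :=
  RingHom.ker_isMaximal_of_surjective (resS pb) (resS_surjective pb)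

lemma C_mem_MM {a : 𝒪} : (C a : TautRing 𝒪 G) ∈ MM pb ↔ a ∈ maximalIdeal 𝒪 := by
  rw [mem_MM, resS_C, residue_eq_zero_iff]

lemma exists_sub_C_mem_MM (s : TautRing 𝒪 G) : ∃ a : 𝒪, s - C a ∈ MM pb := by
  obtain ⟨a, ha⟩ := Ideal.Quotient.mk_surjective (resS pb s)
  refine ⟨a, ?_⟩
  rw [mem_MM, map_sub, resS_C]
  exact sub_eq_zero.mpr ha.symm

lemma MM_ne_top : MM pb ≠ ⊤ := (MM_isMaximal pb).ne_top

lemma map_MM_isMaximal {I : Ideal (TautRing 𝒪 G)} (h2 : I ≤ MM pb) :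
    ((MM pb).map (Ideal.Quotient.mk I)).IsMaximal := by
  have hsurj : Function.Surjective (Ideal.Quotient.mk I) := Ideal.Quotient.mk_surjective
  rcases Ideal.map_eq_top_or_isMaximal_of_surjective (Ideal.Quotient.mk I) hsurj
    (MM_isMaximal pb) with h | h
  · exfalso
    have h' := congrArg (Ideal.comap (Ideal.Quotient.mk I)) h
    rw [Ideal.comap_map_of_surjective _ hsurj, Ideal.comap_top, ← RingHom.ker_eq_comap_bot,
      Ideal.mk_ker, sup_eq_left.mpr h2] at h'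
    exact MM_ne_top pb h'
  · exact h

end Basic

end Lvl

open Lvl

theorem isLocalRing_quot (pb : RigidProblem 𝒪 G) {n : ℕ} {I : Ideal (TautRing 𝒪 G)}
    (h1 : MM pb ^ (n + 1) ≤ I) (h2 : I ≤ MM pb) : IsLocalRing (TautRing 𝒪 G ⧸ I) := by
  apply IsLocalRing.of_unique_max_ideal
  have hsurj : Function.Surjective (Ideal.Quotient.mk I) := Ideal.Quotient.mk_surjective
  refine ⟨(MM pb).map (Ideal.Quotient.mk I), map_MM_isMaximal pb h2, ?_⟩
  · intro P hP
    have hPc : (P.comap (Ideal.Quotient.mk I)).IsMaximal :=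
      Ideal.comap_isMaximal_of_surjective _ hsurj
    have hI : I ≤ P.comap (Ideal.Quotient.mk I) := by
      intro x hx
      rw [Ideal.mem_comap, Ideal.Quotient.eq_zero_iff_mem.mpr hx]
      exact P.zero_mem
    have hle : MM pb ≤ P.comap (Ideal.Quotient.mk I) :=
      Ideal.IsPrime.le_of_pow_le (h1.trans hI)
    have heq : MM pb = P.comap (Ideal.Quotient.mk I) :=
      (MM_isMaximal pb).eq_of_le hPc.ne_top hle
    rw [heq, Ideal.map_comap_of_surjective _ hsurj]

namespace Lvl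

section Quot

variable (pb : RigidProblem 𝒪 G) {n : ℕ} {I : Ideal (TautRing 𝒪 G)}

lemma maximalIdeal_quot (h1 : MM pb ^ (n + 1) ≤ I) (h2 : I ≤ MM pb) :
    @maximalIdeal (TautRing 𝒪 G ⧸ I) _ (isLocalRing_quot pb h1 h2) =
      (MM pb).map (Ideal.Quotient.mk I) := by
  let _ := isLocalRing_quot pb h1 h2
  exact (IsLocalRing.eq_maximalIdeal (map_MM_isMaximal pb h2)).symm

lemma mk_mem_maximalIdeal_iff (h1 : MM pb ^ (n + 1) ≤ I) (h2 : I ≤ MM pb) (s : TautRing 𝒪 G) :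
    Ideal.Quotient.mk I s ∈ @maximalIdeal (TautRing 𝒪 G ⧸ I) _ (isLocalRing_quot pb h1 h2) ↔
      s ∈ MM pb := by
  rw [maximalIdeal_quot pb h1 h2]
  constructor
  · intro h
    obtain ⟨t, ht, hts⟩ := (Ideal.mem_map_iff_of_surjective _ Ideal.Quotient.mk_surjective).mp h
    have h3 : s - t ∈ I := Ideal.Quotient.eq.mp hts.symm
    have h4 := (MM pb).add_mem (h2 h3) ht
    simpa using h4
  · exact Ideal.mem_map_of_mem _

lemma maximalIdeal_quot_pow (h1 : MM pb ^ (n + 1) ≤ I) (h2 : I ≤ MM pb) :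
    (@maximalIdeal (TautRing 𝒪 G ⧸ I) _ (isLocalRing_quot pb h1 h2)) ^ (n + 1) = ⊥ := by
  rw [maximalIdeal_quot pb h1 h2, ← Ideal.map_pow, Ideal.map_eq_bot_iff_le_ker, Ideal.mk_ker]
  exact h1

theorem isArtinianTestAlgebra_quot (h1 : MM pb ^ (n + 1) ≤ I) (h2 : I ≤ MM pb)
    [Finite (TautRing 𝒪 G ⧸ I)] :
    @IsArtinianTestAlgebra 𝒪 _ (TautRing 𝒪 G ⧸ I) _ (isLocalRing_quot pb h1 h2) _ := by
  let _ := isLocalRing_quot pb h1 h2
  refine ⟨⟨?_⟩, ?_, inferInstance⟩
  · intro a ha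
    by_contra hna
    have hmem : a ∈ maximalIdeal 𝒪 := hna
    have h3 : Ideal.Quotient.mk I (C a) ∈ maximalIdeal (TautRing 𝒪 G ⧸ I) :=
      (mk_mem_maximalIdeal_iff pb h1 h2 _).mpr ((C_mem_MM pb).mpr hmem)
    exact h3 ha
  · intro x
    obtain ⟨y, rfl⟩ := Ideal.Quotient.mk_surjective x
    obtain ⟨s, rfl⟩ := Ideal.Quotient.mk_surjective y
    obtain ⟨a, ha⟩ := exists_sub_C_mem_MM pb s
    refine ⟨a, ?_⟩
    have h3 : Ideal.Quotient.mk I (s - C a) ∈ maximalIdeal (TautRing 𝒪 G ⧸ I) :=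
      (mk_mem_maximalIdeal_iff pb h1 h2 _).mpr ha
    have h4 : algebraMap 𝒪 (TautRing 𝒪 G ⧸ I) a = Ideal.Quotient.mk I (C a) := rfl
    symm
    refine Ideal.Quotient.eq.mpr ?_
    rw [h4, ← map_sub]
    exact h3

end Quot

section TestAlg

variable (pb : RigidProblem 𝒪 G)
variable {A : Type} [CommRing A] [IsLocalRing A] [Algebra 𝒪 A]

lemma evMat_mem_maximalIdeal_iff (hA : IsArtinianTestAlgebra 𝒪 A)
    {r : G → Matrix (Fin 2) (Fin 2) A} (hr : pb.Rig A r) (s : TautRing 𝒪 G) :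
    evMat r s ∈ maximalIdeal A ↔ s ∈ MM pb := by
  have := hA.isLocalHom
  have heq : (residue A).comp ((evMat r : TautRing 𝒪 G →ₐ[𝒪] A) : TautRing 𝒪 G →+* A) =
      (ResidueField.map (algebraMap 𝒪 A)).comp
        ((resS pb : TautRing 𝒪 G →ₐ[𝒪] ResidueField 𝒪) : TautRing 𝒪 G →+* ResidueField 𝒪) := by
    apply MvPolynomial.ringHom_ext
    · intro a
      simp only [RingHom.comp_apply, RingHom.coe_coe]
      rw [resS_C, ResidueField.map_residue, evMat, aeval_C]
    · rintro ⟨g, i, j⟩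
      simp only [RingHom.comp_apply, RingHom.coe_coe]
      rw [resS, evMat_X, evMat_X, Matrix.map_apply]
      change residue A (r g i j) = ResidueField.map (algebraMap 𝒪 A) (residue 𝒪 (pb.rbt g i j))
      rw [ResidueField.map_residue]
      exact Ideal.Quotient.eq.mpr (pb.residual hA hr g i j)
  rw [← residue_eq_zero_iff, mem_MM]
  have h3 := DFunLike.congr_fun heq s
  simp only [RingHom.comp_apply, RingHom.coe_coe] at h3
  rw [h3]
  exact map_eq_zero_iff _ (RingHom.injective _)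

lemma finite_of_isArtinianTestAlgebra [Finite (ResidueField 𝒪)]
    (hA : IsArtinianTestAlgebra 𝒪 A) : Finite A := by
  have := hA.isLocalHom
  have := hA.isArtinian
  have hfin : Finite (ResidueField A) := by
    apply Finite.of_surjective (ResidueField.map (algebraMap 𝒪 A))
    intro y
    obtain ⟨a, ha⟩ := hA.residue_surjective y
    exact ⟨residue 𝒪 a, by rw [ResidueField.map_residue]; exact ha⟩
  obtain ⟨m, hm⟩ := IsArtinianRing.isNilpotent_jacobson_bot (R := A)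
  rw [IsLocalRing.jacobson_eq_maximalIdeal ⊥ bot_ne_top] at hm
  have h3 : Finite (A ⧸ (⊥ : Ideal A)) :=
    IsLocalRing.finite_quotient_iff.mpr ⟨m, hm.le⟩
  exact Finite.of_equiv _ (RingEquiv.quotientBot A).toEquiv

end TestAlg

end Lvl

/-- Level ideals: `S ⧸ I` is a finite test algebra with `𝔪^(n+1) = 0` carrying a rigid
deformation given by the tautological matrices. -/
structure IsLevel (pb : RigidProblem 𝒪 G) (n : ℕ) (I : Ideal (TautRing 𝒪 G)) : Prop where
  pow_le : MM pb ^ (n + 1) ≤ I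
  le : I ≤ MM pb
  finite : Finite (TautRing 𝒪 G ⧸ I)
  rig : @RigidProblem.Rig 𝒪 _ _ G pb (TautRing 𝒪 G ⧸ I) _ (isLocalRing_quot pb pow_le le) _
    (tautMat I)

theorem IsLevel.isArtinianTestAlgebra {pb : RigidProblem 𝒪 G} {n : ℕ}
    {I : Ideal (TautRing 𝒪 G)} (h : IsLevel pb n I) :
    @IsArtinianTestAlgebra 𝒪 _ (TautRing 𝒪 G ⧸ I) _ (isLocalRing_quot pb h.pow_le h.le) _ :=
  haveI := h.finite
  isArtinianTestAlgebra_quot pb h.pow_le h.le

namespace Lvl

section Level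

variable (pb : RigidProblem 𝒪 G)

lemma map_tautMat_factor {I J : Ideal (TautRing 𝒪 G)} (hIJ : I ≤ J) :
    (fun g => (tautMat I g).map (Ideal.Quotient.factorₐ 𝒪 hIJ)) = tautMat (G := G) J := by
  funext g
  ext i j
  simp [tautMat]

lemma map_tautMat_kerLift {A : Type} [CommRing A] [Algebra 𝒪 A]
    (r : G → Matrix (Fin 2) (Fin 2) A) :
    (fun g => (tautMat (RingHom.ker (evMat (𝒪 := 𝒪) r)) g).map (Ideal.kerLiftAlg (evMat r))) = r := by
  funext g
  ext i j
  simp [tautMat]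

lemma map_tautMat_lift {A : Type} [CommRing A] [Algebra 𝒪 A]
    (r : G → Matrix (Fin 2) (Fin 2) A) {I : Ideal (TautRing 𝒪 G)}
    (hI : ∀ a ∈ I, evMat (𝒪 := 𝒪) r a = 0) :
    (fun g => (tautMat I g).map (Ideal.Quotient.liftₐ I (evMat r) hI)) = r := by
  funext g
  ext i j
  change Ideal.Quotient.liftₐ I (evMat r) hI (Ideal.Quotient.mk I (X (g, i, j))) = r g i j
  rw [Ideal.Quotient.liftₐ_apply]
  exact evMat_X r g i j

/-- Kernels of evaluations at rigid deformations are level ideals. -/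
theorem isLevel_ker_evMat [Finite (ResidueField 𝒪)] {n : ℕ}
    {A : Type} [CommRing A] [IsLocalRing A] [Algebra 𝒪 A] (hA : IsArtinianTestAlgebra 𝒪 A)
    (hn : maximalIdeal A ^ (n + 1) = ⊥) {r : G → Matrix (Fin 2) (Fin 2) A}
    (hr : pb.Rig A r) : IsLevel pb n (RingHom.ker (evMat (𝒪 := 𝒪) r)) := by
  have h1 : MM pb ^ (n + 1) ≤ RingHom.ker (evMat (𝒪 := 𝒪) r) := by
    have hle : (MM pb).map (evMat (𝒪 := 𝒪) r) ≤ maximalIdeal A := by
      rw [Ideal.map_le_iff_le_comap]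
      intro s hs
      exact (evMat_mem_maximalIdeal_iff pb hA hr s).mpr hs
    intro s hs
    have h3 : evMat r s ∈ ((MM pb).map (evMat (𝒪 := 𝒪) r)) ^ (n + 1) := by
      rw [← Ideal.map_pow]
      exact Ideal.mem_map_of_mem _ hs
    have h4 := Ideal.pow_right_mono hle (n + 1) h3
    rw [hn] at h4
    exact h4
  have h2 : RingHom.ker (evMat (𝒪 := 𝒪) r) ≤ MM pb := by
    intro s hs
    rw [← evMat_mem_maximalIdeal_iff pb hA hr s, RingHom.mem_ker.mp hs]
    exact Ideal.zero_mem _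
  have hfinA : Finite A := finite_of_isArtinianTestAlgebra hA
  have h3 : Finite (TautRing 𝒪 G ⧸ RingHom.ker (evMat (𝒪 := 𝒪) r)) :=
    Finite.of_injective _ (Ideal.kerLiftAlg_injective (evMat (𝒪 := 𝒪) r))
  refine ⟨h1, h2, h3, ?_⟩
  letI := isLocalRing_quot pb h1 h2
  refine pb.of_injective (isArtinianTestAlgebra_quot pb h1 h2) hA
    (Ideal.kerLiftAlg (evMat (𝒪 := 𝒪) r)) (Ideal.kerLiftAlg_injective _) ?_
  rw [map_tautMat_kerLift]
  exact hr

lemma isArtinianTestAlgebra_residueField :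
    IsArtinianTestAlgebra 𝒪 (ResidueField 𝒪) := by
  refine ⟨⟨?_⟩, ?_, inferInstance⟩
  · intro a ha
    by_contra hna
    have hmem : a ∈ maximalIdeal 𝒪 := hna
    have h0 : algebraMap 𝒪 (ResidueField 𝒪) a = 0 := (residue_eq_zero_iff a).mpr hmem
    rw [h0] at ha
    exact not_isUnit_zero ha
  · intro x
    obtain ⟨y, rfl⟩ := Ideal.Quotient.mk_surjective x
    obtain ⟨a, rfl⟩ := Ideal.Quotient.mk_surjective y
    exact ⟨a, rfl⟩

/-- The maximal ideal `MM` is a level ideal for every level. -/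
theorem isLevel_MM [Finite (ResidueField 𝒪)] (n : ℕ) : IsLevel pb n (MM pb) := by
  have h := isLevel_ker_evMat pb (n := n) (isArtinianTestAlgebra_residueField (𝒪 := 𝒪))
    (by
      have h0 : maximalIdeal (ResidueField 𝒪) = ⊥ := IsLocalRing.maximalIdeal_eq_bot
      rw [h0]
      exact Ideal.bot_pow (Nat.succ_ne_zero n)) pb.base
  exact h

end Level

end Lvl

lemma IsLevel.succ {pb : RigidProblem 𝒪 G} {n : ℕ} {I : Ideal (TautRing 𝒪 G)}
    (h : IsLevel pb n I) : IsLevel pb (n + 1) I :=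
  ⟨(Ideal.pow_le_pow_right (Nat.le_succ _)).trans h.pow_le, h.le, h.finite, h.rig⟩

/-- Enlarging a level ideal inside `MM` (to a bigger ideal containing `MM^(m+1)`). -/
theorem IsLevel.of_le {pb : RigidProblem 𝒪 G} {n m : ℕ} {I J : Ideal (TautRing 𝒪 G)}
    (h : IsLevel pb n I) (hIJ : I ≤ J) (hJ1 : MM pb ^ (m + 1) ≤ J) (hJ2 : J ≤ MM pb) :
    IsLevel pb m J := by
  have hfinI := h.finite
  have hfin : Finite (TautRing 𝒪 G ⧸ J) :=
    Finite.of_surjective _ (Ideal.Quotient.factor_surjective hIJ)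
  refine ⟨hJ1, hJ2, hfin, ?_⟩
  letI := isLocalRing_quot pb h.pow_le h.le
  letI := isLocalRing_quot pb hJ1 hJ2
  have h3 := pb.map h.isArtinianTestAlgebra (isArtinianTestAlgebra_quot pb hJ1 hJ2)
    (Ideal.Quotient.factorₐ 𝒪 hIJ) h.rig
  rw [map_tautMat_factor] at h3
  exact h3

/-- Level ideals are closed under intersection. -/
theorem IsLevel.inf {pb : RigidProblem 𝒪 G} {n : ℕ} {I J : Ideal (TautRing 𝒪 G)}
    (hI : IsLevel pb n I) (hJ : IsLevel pb n J) : IsLevel pb n (I ⊓ J) := by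
  have h1 : MM pb ^ (n + 1) ≤ I ⊓ J := le_inf hI.pow_le hJ.pow_le
  have h2 : I ⊓ J ≤ MM pb := inf_le_left.trans hI.le
  have hfinI := hI.finite
  have hfinJ := hJ.finite
  have hinj : Function.Injective (fun x : TautRing 𝒪 G ⧸ (I ⊓ J) =>
      (Ideal.Quotient.factorₐ 𝒪 (inf_le_left : I ⊓ J ≤ I) x,
        Ideal.Quotient.factorₐ 𝒪 (inf_le_right : I ⊓ J ≤ J) x)) := by
    intro x y hxy
    obtain ⟨s, rfl⟩ := Ideal.Quotient.mk_surjective x
    obtain ⟨t, rfl⟩ := Ideal.Quotient.mk_surjective y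
    simp only [Prod.mk.injEq] at hxy
    have hs1 : s - t ∈ I := Ideal.Quotient.eq.mp hxy.1
    have hs2 : s - t ∈ J := Ideal.Quotient.eq.mp hxy.2
    exact Ideal.Quotient.eq.mpr ⟨hs1, hs2⟩
  have h3 : Finite (TautRing 𝒪 G ⧸ (I ⊓ J)) := Finite.of_injective _ hinj
  have hC1 : MM pb ^ (n + 1) ≤ I ⊔ J := hI.pow_le.trans le_sup_left
  have hC2 : I ⊔ J ≤ MM pb := sup_le hI.le hJ.le
  have hfinC : Finite (TautRing 𝒪 G ⧸ (I ⊔ J)) :=
    Finite.of_surjective _ (Ideal.Quotient.factor_surjective (le_sup_left : I ≤ I ⊔ J))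
  refine ⟨h1, h2, h3, ?_⟩
  letI := isLocalRing_quot pb hI.pow_le hI.le
  letI := isLocalRing_quot pb hJ.pow_le hJ.le
  letI := isLocalRing_quot pb hC1 hC2
  letI := isLocalRing_quot pb h1 h2
  refine pb.of_fibreProduct hI.isArtinianTestAlgebra hJ.isArtinianTestAlgebra
    (isArtinianTestAlgebra_quot pb hC1 hC2) (isArtinianTestAlgebra_quot pb h1 h2)
    (Ideal.Quotient.factorₐ 𝒪 (le_sup_left : I ≤ I ⊔ J))
    (Ideal.Quotient.factorₐ 𝒪 (le_sup_right : J ≤ I ⊔ J))
    (Ideal.Quotient.factorₐ 𝒪 (inf_le_left : I ⊓ J ≤ I))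
    (Ideal.Quotient.factorₐ 𝒪 (inf_le_right : I ⊓ J ≤ J)) ?_ hinj ?_ ?_ ?_
  · apply Ideal.Quotient.algHom_ext
    apply MvPolynomial.algHom_ext
    intro p
    rfl
  · intro a b hab
    obtain ⟨s, rfl⟩ := Ideal.Quotient.mk_surjective a
    obtain ⟨t, rfl⟩ := Ideal.Quotient.mk_surjective b
    have hst : s - t ∈ I ⊔ J := Ideal.Quotient.eq.mp hab
    obtain ⟨i, hi, j, hj, hij⟩ := Submodule.mem_sup.mp hst
    refine ⟨Ideal.Quotient.mk _ (s - i), ?_, ?_⟩
    · refine Ideal.Quotient.eq.mpr ?_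
      have : s - i - s = -i := by ring
      rw [this]
      exact I.neg_mem hi
    · refine Ideal.Quotient.eq.mpr ?_
      have : s - i - t = j := by linear_combination -hij
      rw [this]
      exact hj
  · rw [map_tautMat_factor]
    exact hI.rig
  · rw [map_tautMat_factor]
    exact hJ.rig


end Fermat.Agent.S53
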