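import Mathlib
import Fermat.Prelude.Def_GaloisRep_DeformationCondition
import Fermat.Agent.S53.LevelDefs

set_option autoImplicit false

namespace Fermat.Agent.S53

open IsLocalRing GaloisRep MvPolynomial

variable {𝒪 : Type} [CommRing 𝒪] [IsLocalRing 𝒪] {G : Type}

namespace Lvl

instance finite_dualNumber [Finite (ResidueField 𝒪)] :
    Finite (DualNumber (ResidueField 𝒪)) :=
  Finite.of_equiv (ResidueField 𝒪 × ResidueField 𝒪) (Equiv.refl _)

lemma isArtinianTestAlgebra_dualNumber [Finite (ResidueField 𝒪)] :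
    IsArtinianTestAlgebra 𝒪 (DualNumber (ResidueField 𝒪)) := by
  refine ⟨⟨?_⟩, ?_, inferInstance⟩
  · intro a ha
    rw [TrivSqZeroExt.isUnit_iff_isUnit_fst] at ha
    have h1 : IsUnit (residue 𝒪 a) := ha
    exact (isUnit_map_iff (residue 𝒪) a).mp h1
  · intro x
    obtain ⟨y, rfl⟩ := residue_surjective x
    obtain ⟨a, ha⟩ := residue_surjective y.fst
    refine ⟨a, ?_⟩
    change residue _ (algebraMap 𝒪 (DualNumber (ResidueField 𝒪)) a) = residue _ y
    refine Ideal.Quotient.eq.mpr ?_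
    rw [mem_maximalIdeal, mem_nonunits_iff, TrivSqZeroExt.isUnit_iff_isUnit_fst]
    have h0 : (algebraMap 𝒪 (DualNumber (ResidueField 𝒪)) a - y).fst = 0 := by
      rw [TrivSqZeroExt.fst_sub]
      exact sub_eq_zero.mpr ha
    rw [h0]
    exact not_isUnit_zero

section Tangent

variable (pb : RigidProblem 𝒪 G)

/-- The rigid deformations to the dual numbers. -/
def tanSet : Set (G → Matrix (Fin 2) (Fin 2) (DualNumber (ResidueField 𝒪))) :=
  {r | pb.Rig (DualNumber (ResidueField 𝒪)) r}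

lemma tanSet_finite : (tanSet pb).Finite :=
  pb.tangent_finite _ (fun _ => rfl)

/-- The product of the residue map and all evaluations at tangent vectors. -/
noncomputable def tanHom :
    TautRing 𝒪 G →+* ResidueField 𝒪 × (tanSet pb → DualNumber (ResidueField 𝒪)) :=
  (resS pb : TautRing 𝒪 G →+* ResidueField 𝒪).prod
    (RingHom.pi fun τ : tanSet pb =>
      ((evMat (𝒪 := 𝒪) τ.1 : TautRing 𝒪 G →ₐ[𝒪] DualNumber (ResidueField 𝒪)) :
        TautRing 𝒪 G →+* DualNumber (ResidueField 𝒪)))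

/-- The common kernel of the residue map and the evaluations at all tangent vectors. -/
noncomputable def Istar : Ideal (TautRing 𝒪 G) := RingHom.ker (tanHom pb)

lemma mem_Istar {s : TautRing 𝒪 G} :
    s ∈ Istar pb ↔ resS pb s = 0 ∧ ∀ τ ∈ tanSet pb, evMat (𝒪 := 𝒪) τ s = 0 := by
  rw [Istar, RingHom.mem_ker, tanHom, RingHom.prod_apply, Prod.mk_eq_zero]
  refine and_congr Iff.rfl ?_
  constructor
  · intro h τ hτ
    exact congrFun h ⟨τ, hτ⟩
  · intro h
    funext τ
    exact h τ.1 τ.2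

lemma Istar_le_MM : Istar pb ≤ MM pb := fun _ hs => ((mem_Istar pb).mp hs).1

instance finite_quot_Istar [Finite (ResidueField 𝒪)] : Finite (TautRing 𝒪 G ⧸ Istar pb) := by
  have : Finite (tanSet pb) := (tanSet_finite pb).to_subtype
  exact Finite.of_injective _ (RingHom.kerLift_injective (tanHom pb))

/-- The algebra homomorphism to the dual numbers attached to a derivation. -/
noncomputable def derivHom (D : TautRing 𝒪 G →ₗ[𝒪] ResidueField 𝒪) (h1 : D 1 = 0)
    (hmul : ∀ s t, D (s * t) = resS pb s * D t + resS pb t * D s) :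
    TautRing 𝒪 G →ₐ[𝒪] DualNumber (ResidueField 𝒪) :=
  AlgHom.ofLinearMap
    { toFun := fun s => TrivSqZeroExt.inl (resS pb s) + TrivSqZeroExt.inr (D s)
      map_add' := by
        intro s t
        ext <;> simp
      map_smul' := by
        intro a s
        ext <;> simp }
    (by ext <;> simp [h1])
    (by
      intro s t
      ext
      · simp
      · simp [hmul]
        ring)

lemma derivHom_apply (D : TautRing 𝒪 G →ₗ[𝒪] ResidueField 𝒪) (h1 : D 1 = 0)
    (hmul : ∀ s t, D (s * t) = resS pb s * D t + resS pb t * D s) (s : TautRing 𝒪 G) :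
    derivHom pb D h1 hmul s = TrivSqZeroExt.inl (resS pb s) + TrivSqZeroExt.inr (D s) := rfl

omit [IsLocalRing 𝒪] in
lemma evMat_of {A : Type} [CommRing A] [Algebra 𝒪 A] (φ : TautRing 𝒪 G →ₐ[𝒪] A) :
    evMat (𝒪 := 𝒪) (fun g => Matrix.of fun i j => φ (X (g, i, j))) = φ := by
  apply MvPolynomial.algHom_ext
  rintro ⟨g, i, j⟩
  rw [evMat_X]
  rfl

/-- The key tangent space estimate: modulo a level ideal, the square of the maximal ideal
and the maximal ideal of the coefficient ring, everything in `Istar` dies. -/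
theorem Istar_le_of_isLevel [Finite (ResidueField 𝒪)] {n : ℕ} {I : Ideal (TautRing 𝒪 G)}
    (hI : IsLevel pb n I) :
    Istar pb ≤ I ⊔ MM pb ^ 2 ⊔ Ideal.map C (maximalIdeal 𝒪) := by
  intro x hx
  by_contra hxn
  have hmapMM : Ideal.map (C : 𝒪 →+* TautRing 𝒪 G) (maximalIdeal 𝒪) ≤ MM pb := by
    rw [Ideal.map_le_iff_le_comap]
    intro a ha
    exact (C_mem_MM pb).mpr ha
  have hI₂MM : I ⊔ MM pb ^ 2 ⊔ Ideal.map C (maximalIdeal 𝒪) ≤ MM pb :=
    sup_le (sup_le hI.le (Ideal.pow_le_self two_ne_zero)) hmapMM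
  let W : Submodule 𝒪 (TautRing 𝒪 G) :=
    (I ⊔ MM pb ^ 2 ⊔ Ideal.map C (maximalIdeal 𝒪)).restrictScalars 𝒪 ⊔ Submodule.span 𝒪 {1}
  have hW1 : ∀ y ∈ I ⊔ MM pb ^ 2 ⊔ Ideal.map C (maximalIdeal 𝒪), y ∈ W := fun y hy =>
    Submodule.mem_sup_left hy
  have hW2 : (1 : TautRing 𝒪 G) ∈ W :=
    Submodule.mem_sup_right (Submodule.mem_span_singleton_self 1)
  have htors : Module.IsTorsionBySet 𝒪 (TautRing 𝒪 G ⧸ W) (maximalIdeal 𝒪 : Set 𝒪) := by
    rw [Module.isTorsionBySet_quotient_iff]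
    intro s a ha
    apply hW1
    apply Ideal.mem_sup_right
    rw [Algebra.smul_def]
    exact Ideal.mul_mem_right _ _ (Ideal.mem_map_of_mem _ ha)
  letI : Module (ResidueField 𝒪) (TautRing 𝒪 G ⧸ W) := Module.IsTorsionBySet.module htors
  have hxW : (Submodule.Quotient.mk x : TautRing 𝒪 G ⧸ W) ≠ 0 := by
    rw [Ne, Submodule.Quotient.mk_eq_zero]
    intro hxW
    obtain ⟨y, hy, z, hz, hyz⟩ := Submodule.mem_sup.mp hxW
    obtain ⟨a, rfl⟩ := Submodule.mem_span_singleton.mp hz
    have hy' : y ∈ I ⊔ MM pb ^ 2 ⊔ Ideal.map C (maximalIdeal 𝒪) := hy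
    have hCa : (C a : TautRing 𝒪 G) ∈ MM pb := by
      have h3 : (C a : TautRing 𝒪 G) = x - y := by
        rw [← hyz, Algebra.smul_def, mul_one]
        simp
      rw [h3]
      exact (MM pb).sub_mem (Istar_le_MM pb hx) (hI₂MM hy')
    have ha : a ∈ maximalIdeal 𝒪 := (C_mem_MM pb).mp hCa
    apply hxn
    rw [← hyz, Algebra.smul_def, mul_one]
    exact Ideal.add_mem _ hy' (Ideal.mem_sup_right (Ideal.mem_map_of_mem _ ha))
  obtain ⟨lam, hlam⟩ : ∃ lam : Module.Dual (ResidueField 𝒪) (TautRing 𝒪 G ⧸ W),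
      lam (Submodule.Quotient.mk x) ≠ 0 := by
    by_contra hcon
    push Not at hcon
    exact hxW ((Module.forall_dual_apply_eq_zero_iff (ResidueField 𝒪) _).mp hcon)
  have hsmul : ∀ (a : 𝒪) (q : TautRing 𝒪 G ⧸ W), (residue 𝒪 a) • q = a • q := fun a q => rfl
  let D : TautRing 𝒪 G →ₗ[𝒪] ResidueField 𝒪 :=
    { toFun := fun s => lam (Submodule.Quotient.mk s)
      map_add' := by
        intro s t
        rw [Submodule.Quotient.mk_add, map_add]
      map_smul' := by
        intro a s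
        rw [Submodule.Quotient.mk_smul, ← hsmul, map_smul]
        rfl }
  have hDdef : ∀ s, D s = lam (Submodule.Quotient.mk s) := fun s => rfl
  have hD1 : D 1 = 0 := by
    rw [hDdef, (Submodule.Quotient.mk_eq_zero W).mpr hW2, map_zero]
  have hD2 : ∀ y ∈ I ⊔ MM pb ^ 2 ⊔ Ideal.map C (maximalIdeal 𝒪), D y = 0 := by
    intro y hy
    rw [hDdef, (Submodule.Quotient.mk_eq_zero W).mpr (hW1 y hy), map_zero]
  have hDsmul : ∀ (a : 𝒪) (s : TautRing 𝒪 G), D (a • s) = residue 𝒪 a * D s := by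
    intro a s
    rw [map_smul]
    rfl
  have hDmul : ∀ s t, D (s * t) = resS pb s * D t + resS pb t * D s := by
    intro s t
    obtain ⟨a, ha⟩ := exists_sub_C_mem_MM pb s
    obtain ⟨b, hb⟩ := exists_sub_C_mem_MM pb t
    have h3 : (s - C a) * (t - C b) ∈ I ⊔ MM pb ^ 2 ⊔ Ideal.map C (maximalIdeal 𝒪) := by
      apply Ideal.mem_sup_left
      apply Ideal.mem_sup_right
      rw [pow_two]
      exact Ideal.mul_mem_mul ha hb
    have h4 : s * t = (s - C a) * (t - C b) + a • t + b • s - (a * b) • (1 : TautRing 𝒪 G) := by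
      simp only [Algebra.smul_def, MvPolynomial.algebraMap_eq, map_mul]
      ring
    have hsa : resS pb s = residue 𝒪 a := by
      have h5 := (mem_MM pb).mp ha
      rw [map_sub, resS_C] at h5
      exact sub_eq_zero.mp h5
    have htb : resS pb t = residue 𝒪 b := by
      have h5 := (mem_MM pb).mp hb
      rw [map_sub, resS_C] at h5
      exact sub_eq_zero.mp h5
    rw [h4, map_sub, map_add, map_add, hD2 _ h3, hDsmul, hDsmul, hDsmul, hD1, hsa, htb]
    ring
  let τ : G → Matrix (Fin 2) (Fin 2) (DualNumber (ResidueField 𝒪)) :=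
    fun g => Matrix.of fun i j => derivHom pb D hD1 hDmul (X (g, i, j))
  have hev : evMat (𝒪 := 𝒪) τ = derivHom pb D hD1 hDmul := evMat_of (derivHom pb D hD1 hDmul)
  have hφI : ∀ y ∈ I, evMat (𝒪 := 𝒪) τ y = 0 := by
    intro y hy
    rw [hev, derivHom_apply, (mem_MM pb).mp (hI.le hy),
      hD2 y (Ideal.mem_sup_left (Ideal.mem_sup_left hy))]
    simp
  have hτ : τ ∈ tanSet pb := by
    letI := isLocalRing_quot pb hI.pow_le hI.le
    have h3 := pb.map hI.isArtinianTestAlgebra isArtinianTestAlgebra_dualNumber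
      (Ideal.Quotient.liftₐ I (evMat (𝒪 := 𝒪) τ) hφI) hI.rig
    rw [map_tautMat_lift] at h3
    exact h3
  have h5 := ((mem_Istar pb).mp hx).2 τ hτ
  rw [hev, derivHom_apply] at h5
  have h6 := congrArg TrivSqZeroExt.snd h5
  simp only [TrivSqZeroExt.snd_add, TrivSqZeroExt.snd_inl, TrivSqZeroExt.snd_inr, zero_add,
    TrivSqZeroExt.snd_zero] at h6
  exact hlam h6

end Tangent

end Lvl

end Fermat.Agent.S53
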