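import Mathlib
import Fermat.Prelude.Def_GaloisRep_DeformationCondition
import Fermat.Agent.S53.LevelTangent

set_option autoImplicit false

namespace Fermat.Agent.S53

open IsLocalRing GaloisRep MvPolynomial

variable {𝒪 : Type} [CommRing 𝒪] [IsLocalRing 𝒪] {G : Type}

namespace Lvl

/-- A Nakayama-type step: generation modulo the square gives generation modulo every power. -/
lemma le_sup_pow_of_le_sup_sq {R : Type*} [CommRing R] {M K : Ideal R} (h : M ≤ K ⊔ M ^ 2)
    (j : ℕ) (hj : 1 ≤ j) : M ≤ K ⊔ M ^ j := by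
  induction j, hj using Nat.le_induction with
  | base =>
    rw [pow_one]
    exact le_sup_right
  | succ j hj ih =>
    have h2 : M ^ 2 ≤ K ⊔ M ^ (j + 1) := by
      rw [pow_two]
      calc M * M ≤ M * (K ⊔ M ^ j) := Ideal.mul_mono_right ih
        _ = M * K ⊔ M * M ^ j := Ideal.mul_sup _ _ _
        _ ≤ K ⊔ M ^ (j + 1) := sup_le_sup Ideal.mul_le_right (le_of_eq (pow_succ' M j).symm)
    exact h.trans (sup_le le_sup_left h2)

section Gens

variable (pb : RigidProblem 𝒪 G)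

/-- A finite family in `MM` generating the maximal ideal of every level quotient. -/
theorem exists_uniform_gens [IsNoetherianRing 𝒪] [Finite (ResidueField 𝒪)] :
    ∃ (d : ℕ) (s : Fin d → TautRing 𝒪 G), (∀ i, s i ∈ MM pb) ∧
      ∀ (n : ℕ) (I : Ideal (TautRing 𝒪 G)), IsLevel pb n I →
        MM pb ≤ I ⊔ Ideal.span (Set.range s) := by
  obtain ⟨gens, hgens⟩ := (isNoetherianRing_iff_ideal_fg 𝒪).mp inferInstance (maximalIdeal 𝒪)
  let F₁ : Set (TautRing 𝒪 G) :=
    Set.range (fun q : TautRing 𝒪 G ⧸ Istar pb => Quotient.out q) ∩ (MM pb : Set (TautRing 𝒪 G))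
  let F₂ : Set (TautRing 𝒪 G) := (C : 𝒪 →+* TautRing 𝒪 G) '' (gens : Set 𝒪)
  have hF₁ : F₁.Finite := (Set.finite_range _).inter_of_left _
  have hF₂ : F₂.Finite := gens.finite_toSet.image _
  obtain ⟨d, s, -, hs⟩ := (hF₁.union hF₂).fin_param
  refine ⟨d, s, ?_, ?_⟩
  · intro i
    have h0 : s i ∈ F₁ ∪ F₂ := hs ▸ Set.mem_range_self i
    rcases h0 with h | ⟨a, ha, h⟩
    · exact h.2
    · rw [← h]
      refine (C_mem_MM pb).mpr ?_
      rw [← hgens]
      exact Ideal.subset_span ha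
  · intro n I hI
    have h1 : MM pb ≤ Istar pb ⊔ Ideal.span F₁ := by
      intro m hm
      have h2 : (Ideal.Quotient.mk (Istar pb) m).out - m ∈ Istar pb := by
        refine Ideal.Quotient.eq.mp ?_
        exact Quotient.out_eq _
      have h3 : (Ideal.Quotient.mk (Istar pb) m).out ∈ F₁ := by
        refine ⟨Set.mem_range_self _, ?_⟩
        have h5 := (MM pb).add_mem (Istar_le_MM pb h2) hm
        simpa using h5
      have h4 : m = -((Ideal.Quotient.mk (Istar pb) m).out - m) +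
          (Ideal.Quotient.mk (Istar pb) m).out := by ring
      rw [h4]
      exact Ideal.add_mem _ (Ideal.mem_sup_left (neg_mem h2))
        (Ideal.mem_sup_right (Ideal.subset_span h3))
    have h2 : Ideal.map (C : 𝒪 →+* TautRing 𝒪 G) (maximalIdeal 𝒪) ≤ Ideal.span F₂ := by
      rw [← hgens, Ideal.map_span]
    have hF₁s : Ideal.span F₁ ≤ Ideal.span (Set.range s) :=
      Ideal.span_mono (by rw [hs]; exact Set.subset_union_left)
    have hF₂s : Ideal.span F₂ ≤ Ideal.span (Set.range s) :=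
      Ideal.span_mono (by rw [hs]; exact Set.subset_union_right)
    have h3 : MM pb ≤ (I ⊔ Ideal.span (Set.range s)) ⊔ MM pb ^ 2 := by
      refine h1.trans (sup_le ((Istar_le_of_isLevel pb hI).trans ?_) ?_)
      · refine sup_le (sup_le (le_sup_left.trans le_sup_left) le_sup_right) ?_
        exact h2.trans (hF₂s.trans (le_sup_right.trans le_sup_left))
      · exact hF₁s.trans (le_sup_right.trans le_sup_left)
    have h4 := le_sup_pow_of_le_sup_sq h3 (n + 1) (Nat.succ_le_succ (Nat.zero_le n))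
    exact h4.trans (sup_le le_rfl (hI.pow_le.trans le_sup_left))

/-- Uniform finite sets of representatives modulo `I ⊔ MM ^ j`. -/
theorem exists_finset_reps [Finite (ResidueField 𝒪)] {d : ℕ} (s : Fin d → TautRing 𝒪 G)
    (hs : ∀ i, s i ∈ MM pb) (j : ℕ) :
    ∃ E : Finset (TautRing 𝒪 G), ∀ (I : Ideal (TautRing 𝒪 G)),
      MM pb ≤ I ⊔ Ideal.span (Set.range s) → ∀ x, ∃ e ∈ E, x - e ∈ I ⊔ MM pb ^ j := by
  classical
  have := Fintype.ofFinite (ResidueField 𝒪)
  let σ : ResidueField 𝒪 → 𝒪 := Function.surjInv (residue_surjective (R := 𝒪))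
  have hσ : ∀ y, residue 𝒪 (σ y) = y := Function.surjInv_eq _
  induction j with
  | zero => exact ⟨{0}, fun I _ x => ⟨0, Finset.mem_singleton_self 0, by simp⟩⟩
  | succ j ih =>
    obtain ⟨E, hE⟩ := ih
    refine ⟨Finset.image (fun p : ResidueField 𝒪 × (Fin d → TautRing 𝒪 G) =>
      C (σ p.1) + ∑ i, p.2 i * s i)
      (Finset.univ ×ˢ Fintype.piFinset (fun _ => E)), ?_⟩
    intro I hI x
    have hxa : x - C (σ (resS pb x)) ∈ MM pb := by
      rw [mem_MM, map_sub, resS_C, sub_eq_zero]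
      exact (hσ _).symm
    obtain ⟨y, hy, z, hz, hyz⟩ := Submodule.mem_sup.mp (hI hxa)
    obtain ⟨c, hc⟩ := Ideal.mem_span_range_iff_exists_fun.mp hz
    choose e he1 he2 using fun i => hE I hI (c i)
    refine ⟨C (σ (resS pb x)) + ∑ i, e i * s i, ?_, ?_⟩
    · refine Finset.mem_image.mpr ⟨(resS pb x, e), ?_, rfl⟩
      simp [he1]
    · have h5 : x - (C (σ (resS pb x)) + ∑ i, e i * s i) =
          y + ∑ i, (c i - e i) * s i := by
        simp only [sub_mul, Finset.sum_sub_distrib, hc]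
        linear_combination -hyz
      rw [h5]
      refine Ideal.add_mem _ (Ideal.mem_sup_left hy) (Ideal.sum_mem _ fun i _ => ?_)
      have h6 : (c i - e i) * s i ∈ (I ⊔ MM pb ^ j) * MM pb := Ideal.mul_mem_mul (he2 i) (hs i)
      have h7 : (I ⊔ MM pb ^ j) * MM pb ≤ I ⊔ MM pb ^ (j + 1) := by
        rw [Ideal.sup_mul, pow_succ]
        exact sup_le_sup Ideal.mul_le_left le_rfl
      exact h7 h6

/-- The level quotients of a given level have uniformly bounded cardinality. -/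
theorem exists_card_bound [IsNoetherianRing 𝒪] [Finite (ResidueField 𝒪)] (n : ℕ) :
    ∃ N : ℕ, ∀ I, IsLevel pb n I → Nat.card (TautRing 𝒪 G ⧸ I) ≤ N := by
  obtain ⟨d, s, hs1, hs2⟩ := exists_uniform_gens pb
  obtain ⟨E, hE⟩ := exists_finset_reps pb s hs1 (n + 1)
  refine ⟨E.card, fun I hI => ?_⟩
  have hsurj : Function.Surjective (fun e : E => Ideal.Quotient.mk I e.1) := by
    intro q
    obtain ⟨x, rfl⟩ := Ideal.Quotient.mk_surjective q
    obtain ⟨e, he, hxe⟩ := hE I (hs2 n I hI) x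
    refine ⟨⟨e, he⟩, ?_⟩
    symm
    refine Ideal.Quotient.eq.mpr ?_
    have h3 : I ⊔ MM pb ^ (n + 1) = I := sup_eq_left.mpr hI.pow_le
    rw [h3] at hxe
    exact hxe
  have h4 := Nat.card_le_card_of_surjective _ hsurj
  simpa using h4

/-- There is a smallest level ideal for each level. -/
theorem exists_minimal [IsNoetherianRing 𝒪] [Finite (ResidueField 𝒪)] (n : ℕ) :
    ∃ I, IsLevel pb n I ∧ ∀ J, IsLevel pb n J → I ≤ J := by
  obtain ⟨N, hN⟩ := exists_card_bound pb n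
  let 𝒮 : Set ℕ := {m | ∃ I, IsLevel pb n I ∧ Nat.card (TautRing 𝒪 G ⧸ I) = m}
  have hne : 𝒮.Nonempty := ⟨_, MM pb, isLevel_MM pb n, rfl⟩
  have hbdd : BddAbove 𝒮 := ⟨N, by rintro m ⟨I, hI, rfl⟩; exact hN I hI⟩
  obtain ⟨I, hI, hcard⟩ := Nat.sSup_mem hne hbdd
  refine ⟨I, hI, fun J hJ => ?_⟩
  have hIJ : IsLevel pb n (I ⊓ J) := hI.inf hJ
  have hle : Nat.card (TautRing 𝒪 G ⧸ (I ⊓ J)) ≤ Nat.card (TautRing 𝒪 G ⧸ I) := by
    rw [hcard]
    exact le_csSup hbdd ⟨I ⊓ J, hIJ, rfl⟩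
  have hfin := hIJ.finite
  have hsurj : Function.Surjective (Ideal.Quotient.factor (inf_le_left : I ⊓ J ≤ I)) :=
    Ideal.Quotient.factor_surjective _
  have hbij := hsurj.bijective_of_nat_card_le hle
  intro x hx
  have h0 : Ideal.Quotient.factor (inf_le_left : I ⊓ J ≤ I) (Ideal.Quotient.mk _ x) =
      Ideal.Quotient.factor (inf_le_left : I ⊓ J ≤ I) 0 := by
    rw [Ideal.Quotient.factor_mk, map_zero]
    exact Ideal.Quotient.eq_zero_iff_mem.mpr hx
  have h1 := hbij.1 h0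
  exact (Ideal.Quotient.eq_zero_iff_mem.mp h1).2

end Gens

end Lvl

open Lvl

/-- Output of track T3: the tower of minimal level ideals. -/
structure LevelSystem (pb : RigidProblem 𝒪 G) where
  I : ℕ → Ideal (TautRing 𝒪 G)
  isLevel : ∀ n, IsLevel pb n (I n)
  minimal : ∀ n J, IsLevel pb n J → I n ≤ J
  mono : ∀ n, I (n + 1) ≤ I n
  le_sup : ∀ n, I n ≤ I (n + 1) ⊔ MM pb ^ (n + 1)
  d : ℕ
  s : Fin d → TautRing 𝒪 G
  s_mem : ∀ i, s i ∈ MM pb
  gen : ∀ n, MM pb ≤ I n ⊔ Ideal.span (Set.range s)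

theorem exists_levelSystem [IsNoetherianRing 𝒪] [Finite (ResidueField 𝒪)]
    (pb : RigidProblem 𝒪 G) : Nonempty (LevelSystem pb) := by
  choose I hI hmin using fun n => exists_minimal pb n
  obtain ⟨d, s, hs1, hs2⟩ := exists_uniform_gens pb
  exact ⟨{
    I := I
    isLevel := hI
    minimal := hmin
    mono := fun n => hmin (n + 1) (I n) (hI n).succ
    le_sup := fun n => hmin n _ ((hI (n + 1)).of_le le_sup_left le_sup_right
      (sup_le (hI (n + 1)).le (Ideal.pow_le_self (Nat.succ_ne_zero n))))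
    d := d
    s := s
    s_mem := hs1
    gen := fun n => hs2 n (I n) (hI n) }⟩

theorem LevelSystem.universal [Finite (ResidueField 𝒪)] {pb : RigidProblem 𝒪 G}
    (Ls : LevelSystem pb) (n : ℕ)
    {A : Type} [CommRing A] [IsLocalRing A] [Algebra 𝒪 A] (hA : IsArtinianTestAlgebra 𝒪 A)
    (hn : maximalIdeal A ^ (n + 1) = ⊥) {r : G → Matrix (Fin 2) (Fin 2) A}
    (hr : pb.Rig A r) :
    ∃! φ : (TautRing 𝒪 G ⧸ Ls.I n) →ₐ[𝒪] A, ∀ g, (tautMat (Ls.I n) g).map φ = r g := by
  have hK : IsLevel pb n (RingHom.ker (evMat (𝒪 := 𝒪) r)) := isLevel_ker_evMat pb hA hn hr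
  have hle : ∀ a ∈ Ls.I n, evMat (𝒪 := 𝒪) r a = 0 := fun a ha =>
    RingHom.mem_ker.mp (Ls.minimal n _ hK ha)
  refine ⟨Ideal.Quotient.liftₐ (Ls.I n) (evMat (𝒪 := 𝒪) r) hle, ?_, ?_⟩
  · intro g
    exact congrFun (map_tautMat_lift r hle) g
  · intro φ hφ
    apply Ideal.Quotient.algHom_ext
    apply MvPolynomial.algHom_ext
    rintro ⟨g, i, j⟩
    have h1 := congrFun (congrFun (hφ g) i) j
    have h2 := congrFun (congrFun (congrFun (map_tautMat_lift r hle) g) i) j
    exact h1.trans h2.symm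

end Fermat.Agent.S53
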