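import Mathlib

set_option autoImplicit false

namespace Fermat.Agent.S53

open IsLocalRing

/-- Output of track T1: a complete Noetherian local `𝒪`-algebra `R` which is the inverse limit
of the tower `S ⧸ I n` (level `n` = quotient by `𝔪_R ^ (n+1)`). -/
structure LimitRing (𝒪 : Type) [CommRing 𝒪] [IsLocalRing 𝒪] {S : Type} [CommRing S]
    [Algebra 𝒪 S] (I : ℕ → Ideal S) : Type 1 where
  R : Type
  [instCommRing : CommRing R]
  [instIsLocalRing : IsLocalRing R]
  [instIsNoetherianRing : IsNoetherianRing R]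
  [instIsAdicComplete : IsAdicComplete (maximalIdeal R) R]
  [instAlgebra : Algebra 𝒪 R]
  [instIsLocalHom : IsLocalHom (algebraMap 𝒪 R)]
  residue_surjective : Function.Surjective (residue R ∘ algebraMap 𝒪 R)
  q : ∀ n, R →ₐ[𝒪] S ⧸ I n
  q_surjective : ∀ n, Function.Surjective (q n)
  ker_q : ∀ n, RingHom.ker (q n) = maximalIdeal R ^ (n + 1)
  q_compat : ∀ (n : ℕ) (x : R) (y : S),
    q (n + 1) x = Ideal.Quotient.mk (I (n + 1)) y → q n x = Ideal.Quotient.mk (I n) y

attribute [instance] LimitRing.instCommRing LimitRing.instIsLocalRing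
  LimitRing.instIsNoetherianRing LimitRing.instIsAdicComplete LimitRing.instAlgebra
  LimitRing.instIsLocalHom

end Fermat.Agent.S53
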