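import Mathlib
import Fermat.Prelude.Thm_IsLocalRing_isAdicComplete_of_module_finite
import Fermat.Agent.S53.LimitDef
import Fermat.Agent.S53.Lim.Level

set_option autoImplicit false

namespace Fermat.Agent.S53

open IsLocalRing

/-- Track T1 main theorem. `res` is the residue map of `S` (automatically surjective),
`MM = RingHom.ker res`. -/
theorem exists_limitRing
    {𝒪 : Type} [CommRing 𝒪] [IsDomain 𝒪] [IsDiscreteValuationRing 𝒪]
    [IsAdicComplete (maximalIdeal 𝒪) 𝒪]
    {S : Type} [CommRing S] [Algebra 𝒪 S]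
    (res : S →ₐ[𝒪] ResidueField 𝒪) (I : ℕ → Ideal S)
    (hpow : ∀ n, RingHom.ker res ^ (n + 1) ≤ I n) (hle : ∀ n, I n ≤ RingHom.ker res)
    (hfin : ∀ n, Finite (S ⧸ I n))
    (mono : ∀ n, I (n + 1) ≤ I n)
    (le_sup : ∀ n, I n ≤ I (n + 1) ⊔ RingHom.ker res ^ (n + 1))
    {d : ℕ} (s : Fin d → S) (s_mem : ∀ i, s i ∈ RingHom.ker res)
    (gen : ∀ n, RingHom.ker res ≤ I n ⊔ Ideal.span (Set.range s)) :
    Nonempty (LimitRing 𝒪 I) := by
  have hres_surj : Function.Surjective res := by
    intro y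
    obtain ⟨c, rfl⟩ := IsLocalRing.residue_surjective y
    exact ⟨algebraMap 𝒪 S c, by rw [AlgHom.commutes]; rfl⟩
  have hmax : (RingHom.ker res).IsMaximal :=
    RingHom.ker_isMaximal_of_surjective res hres_surj
  have h : Lim.LevelHyp 𝒪 (RingHom.ker res) I s := by
    refine ⟨hmax, ?_, hpow, hle 0, mono, le_sup, s_mem, gen⟩
    intro y
    obtain ⟨x, rfl⟩ := Ideal.Quotient.mk_surjective y
    obtain ⟨c, hc⟩ := IsLocalRing.residue_surjective (res x)
    refine ⟨c, ?_⟩
    change Ideal.Quotient.mk _ (algebraMap 𝒪 S c) = _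
    rw [Ideal.Quotient.eq, RingHom.mem_ker, map_sub, AlgHom.commutes, sub_eq_zero]
    exact hc
  exact ⟨{
    R := h.Ring
    residue_surjective := h.residue_surjective
    q := h.proj
    q_surjective := h.proj_surjective
    ker_q := h.ker_proj
    q_compat := fun n x y hxy => by
      rw [← h.proj_factor, hxy, Ideal.Quotient.factor_mk] }⟩

end Fermat.Agent.S53
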