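import Fermat.Agent.S53.Problem
import Fermat.Agent.S53.Level
import Fermat.Agent.S53.Limit

set_option autoImplicit false

namespace Fermat.Agent.S53

open IsLocalRing GaloisRep

noncomputable section

namespace Univ

section LimitGeneric

variable {𝒪 : Type} [CommRing 𝒪] [IsLocalRing 𝒪] {S : Type} [CommRing S] [Algebra 𝒪 S]
  {I : ℕ → Ideal S} (Lim : LimitRing 𝒪 I)

theorem q_compat_le {m n : ℕ} (hmn : m ≤ n) (x : Lim.R) (y : S)
    (h : Lim.q n x = Ideal.Quotient.mk (I n) y) : Lim.q m x = Ideal.Quotient.mk (I m) y := by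
  induction hmn with
  | refl => exact h
  | step hmn ih => exact ih (Lim.q_compat _ x y h)

theorem q_ext (x x' : Lim.R) (h : ∀ n, Lim.q n x = Lim.q n x') : x = x' := by
  rw [← sub_eq_zero]
  apply IsHausdorff.haus' (I := maximalIdeal Lim.R)
  intro n
  rw [SModEq.zero, smul_eq_mul, Ideal.mul_top]
  have h1 : x - x' ∈ RingHom.ker (Lim.q n) := by
    rw [RingHom.mem_ker, map_sub, h n, sub_self]
  rw [Lim.ker_q] at h1
  exact Ideal.pow_le_pow_right (Nat.le_succ n) h1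

theorem exists_lift (y : S) : ∃ x : Lim.R, ∀ n, Lim.q n x = Ideal.Quotient.mk (I n) y := by
  choose b hb using fun n => Lim.q_surjective n (Ideal.Quotient.mk (I n) y)
  have hcauchy : ∀ {m n}, m ≤ n →
      b m ≡ b n [SMOD (maximalIdeal Lim.R ^ m • ⊤ : Submodule Lim.R Lim.R)] := by
    intro m n hmn
    rw [SModEq.sub_mem, smul_eq_mul, Ideal.mul_top]
    have h1 : b m - b n ∈ RingHom.ker (Lim.q m) := by
      rw [RingHom.mem_ker, map_sub, hb m, q_compat_le Lim hmn _ _ (hb n), sub_self]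
    rw [Lim.ker_q] at h1
    exact Ideal.pow_le_pow_right (Nat.le_succ m) h1
  obtain ⟨L, hL⟩ := IsPrecomplete.prec' (I := maximalIdeal Lim.R) b hcauchy
  refine ⟨L, fun n => ?_⟩
  have h1 := hL (n + 1)
  rw [SModEq.sub_mem, smul_eq_mul, Ideal.mul_top, ← Lim.ker_q, RingHom.mem_ker, map_sub,
    sub_eq_zero] at h1
  rw [← h1]
  exact q_compat_le Lim (Nat.le_succ n) _ _ (hb (n + 1))

theorem exists_theta {ι : Type} {I : ℕ → Ideal (MvPolynomial ι 𝒪)} (Lim : LimitRing 𝒪 I) :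
    ∃ θ : MvPolynomial ι 𝒪 →ₐ[𝒪] Lim.R,
      ∀ n y, Lim.q n (θ y) = Ideal.Quotient.mk (I n) y := by
  choose t ht using fun p : ι => exists_lift Lim (MvPolynomial.X p)
  refine ⟨MvPolynomial.aeval t, fun n y => ?_⟩
  have h1 : (Lim.q n).comp (MvPolynomial.aeval t) = Ideal.Quotient.mkₐ 𝒪 (I n) := by
    apply MvPolynomial.algHom_ext
    intro p
    simp [ht p n]
  exact DFunLike.congr_fun h1 y

theorem map_pow_maximalIdeal {R A : Type} [CommRing R] [IsLocalRing R] [CommRing A]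
    [IsLocalRing A] (f : R →+* A) (hf : IsLocalHom f) (n : ℕ) {x : R}
    (hx : x ∈ maximalIdeal R ^ n) : f x ∈ maximalIdeal A ^ n := by
  have h2 : (maximalIdeal R ^ n).map f ≤ maximalIdeal A ^ n := by
    rw [Ideal.map_pow]
    exact Ideal.pow_right_mono (map_maximalIdeal_le f) n
  exact h2 (Ideal.mem_map_of_mem _ hx)

/-- the limit ring maps to a complete ring as soon as the levels do -/
theorem exists_hom (θ : S →ₐ[𝒪] Lim.R) (hθ : ∀ n y, Lim.q n (θ y) = Ideal.Quotient.mk (I n) y)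
    (A : Type) [CommRing A] [IsLocalRing A] [IsAdicComplete (maximalIdeal A) A] [Algebra 𝒪 A]
    (Φ : S →ₐ[𝒪] A) (hΦ : ∀ n, ∀ y ∈ I n, Φ y ∈ maximalIdeal A ^ (n + 1)) :
    ∃ φ : Lim.R →ₐ[𝒪] A, φ.comp θ = Φ := by
  let g : ∀ n, (S ⧸ I n) →ₐ[𝒪] (A ⧸ maximalIdeal A ^ (n + 1)) := fun n =>
    Ideal.Quotient.liftₐ (I n) ((Ideal.Quotient.mkₐ 𝒪 (maximalIdeal A ^ (n + 1))).comp Φ)
      (fun y hy => by
        simp only [AlgHom.coe_comp, Ideal.Quotient.mkₐ_eq_mk, Function.comp_apply]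
        exact Ideal.Quotient.eq_zero_iff_mem.mpr (hΦ n y hy))
  let f : ∀ n, Lim.R →ₐ[𝒪] (A ⧸ maximalIdeal A ^ n) := fun n =>
    (Ideal.Quotient.factorₐ 𝒪 (Ideal.pow_le_pow_right (Nat.le_succ n))).comp
      ((g n).comp (Lim.q n))
  have key : ∀ n x y, Lim.q n x = Ideal.Quotient.mk (I n) y →
      f n x = Ideal.Quotient.mk (maximalIdeal A ^ n) (Φ y) := by
    intro n x y h
    simp only [f, g, AlgHom.coe_comp, Function.comp_apply, h]
    rfl
  have compat : ∀ {m n : ℕ} (hle : m ≤ n),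
      (Ideal.Quotient.factorₐ 𝒪 (Ideal.pow_le_pow_right hle)).comp (f n) = f m := by
    intro m n hle
    apply AlgHom.ext
    intro x
    obtain ⟨y, hy⟩ := Ideal.Quotient.mk_surjective (Lim.q n x)
    rw [AlgHom.comp_apply, key n x y hy.symm, key m x y (q_compat_le Lim hle x y hy.symm)]
    rfl
  refine ⟨IsAdicComplete.liftAlgHom (maximalIdeal A) f compat, ?_⟩
  apply AlgHom.ext
  intro y
  rw [AlgHom.comp_apply, ← sub_eq_zero]
  apply IsHausdorff.haus' (I := maximalIdeal A)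
  intro n
  rw [SModEq.zero, smul_eq_mul, Ideal.mul_top, ← Ideal.Quotient.eq_zero_iff_mem, map_sub,
    sub_eq_zero, IsAdicComplete.mk_liftAlgHom]
  exact key n (θ y) y (hθ n y)

/-- two local homs out of the limit ring agreeing on the dense image of `θ` are equal -/
theorem hom_ext (θ : S →ₐ[𝒪] Lim.R) (hθ : ∀ n y, Lim.q n (θ y) = Ideal.Quotient.mk (I n) y)
    (A : Type) [CommRing A] [IsLocalRing A] [IsAdicComplete (maximalIdeal A) A] [Algebra 𝒪 A]
    (φ φ' : Lim.R →ₐ[𝒪] A) (hφ : IsLocalHom (φ : Lim.R →+* A))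
    (hφ' : IsLocalHom (φ' : Lim.R →+* A)) (h : φ.comp θ = φ'.comp θ) : φ = φ' := by
  apply AlgHom.ext
  intro x
  rw [← sub_eq_zero]
  apply IsHausdorff.haus' (I := maximalIdeal A)
  intro n
  rw [SModEq.zero, smul_eq_mul, Ideal.mul_top]
  obtain ⟨y, hy⟩ := Ideal.Quotient.mk_surjective (Lim.q n x)
  have h1 : x - θ y ∈ maximalIdeal Lim.R ^ (n + 1) := by
    rw [← Lim.ker_q, RingHom.mem_ker, map_sub, hθ, hy, sub_self]
  have h2 : φ (θ y) = φ' (θ y) := DFunLike.congr_fun h y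
  have h3 : φ x - φ' x = φ (x - θ y) - φ' (x - θ y) := by
    rw [map_sub, map_sub, h2]; ring
  rw [h3]
  exact Ideal.pow_le_pow_right (Nat.le_succ n)
    (sub_mem (map_pow_maximalIdeal (φ : Lim.R →+* A) hφ _ h1)
      (map_pow_maximalIdeal (φ' : Lim.R →+* A) hφ' _ h1))

end LimitGeneric


section Transport

variable {A : Type} [CommRing A] [IsLocalRing A]

theorem ofMatrix_congr {r s : GQ →* M2 A} (h : r = s) (hr : MatCont r) (hs : MatCont s) :
    ofMatrix r hr = ofMatrix s hs := by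
  subst h; rfl

end Transport

section Quotient

variable {𝒪 : Type} [CommRing 𝒪] [IsLocalRing 𝒪]

/-- `A ⧸ 𝔪^(n+1)` is an Artinian test algebra killed by `𝔪^(n+1)` -/
theorem quotient_test (A : Type) [CommRing A] [IsLocalRing A] [IsNoetherianRing A] [Algebra 𝒪 A]
    (hloc : IsLocalHom (algebraMap 𝒪 A))
    (hsurj : Function.Surjective (residue A ∘ algebraMap 𝒪 A)) (n : ℕ) :
    ∃ (_ : IsLocalRing (A ⧸ maximalIdeal A ^ (n + 1))),
      IsArtinianTestAlgebra 𝒪 (A ⧸ maximalIdeal A ^ (n + 1)) ∧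
      maximalIdeal (A ⧸ maximalIdeal A ^ (n + 1)) ^ (n + 1) = ⊥ ∧
      IsLocalHom (Ideal.Quotient.mk (maximalIdeal A ^ (n + 1))) := by
  have hne : maximalIdeal A ^ (n + 1) ≠ ⊤ := by
    intro h
    have h1 : maximalIdeal A ^ (n + 1) ≤ maximalIdeal A := Ideal.pow_le_self (Nat.succ_ne_zero n)
    rw [h] at h1
    exact (maximalIdeal.isMaximal A).ne_top (top_le_iff.mp h1)
  haveI : Nontrivial (A ⧸ maximalIdeal A ^ (n + 1)) := Ideal.Quotient.nontrivial_iff.mpr hne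
  haveI hlocq : IsLocalRing (A ⧸ maximalIdeal A ^ (n + 1)) :=
    IsLocalRing.of_surjective' (Ideal.Quotient.mk _) Ideal.Quotient.mk_surjective
  have hmk : IsLocalHom (Ideal.Quotient.mk (maximalIdeal A ^ (n + 1))) :=
    IsLocalHom.of_surjective _ Ideal.Quotient.mk_surjective
  have hmax : maximalIdeal (A ⧸ maximalIdeal A ^ (n + 1)) ^ (n + 1) = ⊥ := by
    rw [← map_maximalIdeal_of_surjective (Ideal.Quotient.mk (maximalIdeal A ^ (n + 1)))
      Ideal.Quotient.mk_surjective, ← Ideal.map_pow, Ideal.map_quotient_self]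
  refine ⟨hlocq, ⟨?_, ?_, ?_⟩, hmax, hmk⟩
  · constructor
    intro a ha
    rw [← Ideal.Quotient.mk_algebraMap] at ha
    exact hloc.map_nonunit a (hmk.map_nonunit _ ha)
  · intro x
    obtain ⟨y, rfl⟩ := residue_surjective x
    obtain ⟨a, rfl⟩ := Ideal.Quotient.mk_surjective y
    obtain ⟨c, hc⟩ := hsurj (residue A a)
    refine ⟨c, ?_⟩
    have h1 : algebraMap 𝒪 A c - a ∈ maximalIdeal A := by
      rw [← residue_eq_zero_iff, map_sub, sub_eq_zero]
      exact hc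
    have h2 : Ideal.Quotient.mk (maximalIdeal A ^ (n + 1)) (algebraMap 𝒪 A c - a) ∈
        maximalIdeal (A ⧸ maximalIdeal A ^ (n + 1)) := fun hu => h1 (hmk.map_nonunit _ hu)
    rw [← residue_eq_zero_iff, map_sub, map_sub, sub_eq_zero] at h2
    rw [Function.comp_apply, ← Ideal.Quotient.mk_algebraMap]
    exact h2
  · rw [isArtinianRing_iff_isNilpotent_maximalIdeal]
    exact ⟨n + 1, hmax⟩

end Quotient

section Specific

variable {𝒪 : Type} [CommRing 𝒪] [IsDomain 𝒪] [IsDiscreteValuationRing 𝒪]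
  [Finite (ResidueField 𝒪)]
  {ρbar : ResidualGaloisRep (ResidueField 𝒪)}
  {𝒟 : ∀ ⦃A : Type⦄ [CommRing A] [IsLocalRing A] [Algebra 𝒪 A], GaloisRepAdic A → Prop}
  {E : RigidData (resMatrix ρbar)} {h𝒟 : IsDeformationCondition 𝒪 𝒟}
  {hbar : 𝒟 (GaloisRepAdic.ofResidualGaloisRep ρbar)} {hfin : TangentFinite 𝒪 ρbar 𝒟}
  (Ls : LevelSystem (rigidProblem ρbar 𝒟 E h𝒟 hbar hfin))

/-- the data carried by level `n` of the level system -/
theorem level_data (n : ℕ) :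
    ∃ (_ : IsLocalRing (TautRing 𝒪 GQ ⧸ Ls.I n)) (r' : GQ →* M2 (TautRing 𝒪 GQ ⧸ Ls.I n))
      (hr : MatCont r'), (∀ g, r' g = tautMat (Ls.I n) g) ∧ IsRigid E r' ∧
        𝒟 (ofMatrix r' hr) ∧ IsArtinianTestAlgebra 𝒪 (TautRing 𝒪 GQ ⧸ Ls.I n) := by
  refine ⟨isLocalRing_quot _ (Ls.isLevel n).pow_le (Ls.isLevel n).le, ?_⟩
  obtain ⟨r', hr', hrig, hcont, hD⟩ := (Ls.isLevel n).rig
  exact ⟨r', hcont, hr', hrig, hD, IsLevel.isArtinianTestAlgebra (Ls.isLevel n)⟩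

variable (Lim : LimitRing 𝒪 Ls.I)
  (θ : TautRing 𝒪 GQ →ₐ[𝒪] Lim.R)
  (hθ : ∀ n y, Lim.q n (θ y) = Ideal.Quotient.mk (Ls.I n) y)

include hθ in
theorem exists_univRep :
    ∃ ru : GQ →* M2 Lim.R, ∀ g i j, ru g i j = θ (MvPolynomial.X (g, i, j)) := by
  have hM : ∀ M N : M2 Lim.R, (∀ n, M.map (Lim.q n) = N.map (Lim.q n)) → M = N := by
    intro M N h
    ext i j
    exact q_ext Lim _ _ (fun n => congrFun (congrFun (h n) i) j)
  have hq : ∀ n g, (Matrix.of fun i j => θ (MvPolynomial.X (g, i, j)) : M2 Lim.R).map (Lim.q n)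
      = tautMat (Ls.I n) g := by
    intro n g
    ext i j
    simp [tautMat, hθ]
  refine ⟨⟨⟨fun g => Matrix.of fun i j => θ (MvPolynomial.X (g, i, j)), hM _ _ fun n => ?_⟩,
    fun g h => hM _ _ fun n => ?_⟩, fun _ _ _ => rfl⟩
  · obtain ⟨hloc, r', hcont, hr', -⟩ := level_data Ls n
    rw [hq, ← hr' 1, map_one, Matrix.map_one _ (map_zero _) (map_one _)]
  · obtain ⟨hloc, r', hcont, hr', -⟩ := level_data Ls n
    rw [Matrix.map_mul, hq, hq, hq, ← hr', ← hr', ← hr', map_mul]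

variable (ru : GQ →* M2 Lim.R) (hru : ∀ g i j, ru g i j = θ (MvPolynomial.X (g, i, j)))

include hθ hru in
theorem q_univ (n : ℕ) (g : GQ) (i j : Fin 2) :
    Lim.q n (ru g i j) = tautMat (Ls.I n) g i j := by
  rw [hru, hθ]; rfl

include hθ hru in
theorem matCont_univ : MatCont ru := by
  intro n
  obtain ⟨hloc, r', hcont, hr', hrig, hD, hart⟩ := level_data Ls n
  have := hart.isArtinian
  obtain ⟨m, hm⟩ := exists_pow_succ_eq_bot (TautRing 𝒪 GQ ⧸ Ls.I n)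
  obtain ⟨L, hL, h1⟩ := hcont.matFin (m + 1) hm
  refine ⟨L, hL, fun σ hσ i j => ?_⟩
  have h2 := h1 σ hσ
  have h3 : (ru σ - 1) i j ∈ RingHom.ker (Lim.q n) := by
    rw [RingHom.mem_ker, Matrix.sub_apply, map_sub, q_univ Ls Lim θ hθ ru hru, ← hr' σ, h2]
    by_cases hij : i = j
    · subst hij; simp
    · simp [hij]
  rw [Lim.ker_q] at h3
  exact Ideal.pow_le_pow_right (Nat.le_succ n) h3

include hθ hru in
theorem lin_univ (e : GQ →₀ 𝒪) (i j : Fin 2) (n : ℕ) :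
    Lim.q n (lin e ru i j) =
      (e.sum fun g a => algebraMap 𝒪 (TautRing 𝒪 GQ ⧸ Ls.I n) a • tautMat (Ls.I n) g) i j := by
  unfold lin
  simp only [Finsupp.sum, Matrix.sum_apply, Matrix.smul_apply, map_sum, smul_eq_mul, map_mul,
    AlgHom.commutes, q_univ Ls Lim θ hθ ru hru]

include hθ hru in
theorem isRigid_univ : IsRigid E ru := by
  have hlin : ∀ (e : GQ →₀ 𝒪) (i j : Fin 2) (c : 𝒪),
      (∀ n, ∀ (_ : IsLocalRing (TautRing 𝒪 GQ ⧸ Ls.I n))
        (r' : GQ →* M2 (TautRing 𝒪 GQ ⧸ Ls.I n)), (∀ g, r' g = tautMat (Ls.I n) g) →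
          IsRigid E r' → lin e r' i j = algebraMap 𝒪 _ c) →
      lin e ru i j = algebraMap 𝒪 Lim.R c := by
    intro e i j c h
    apply q_ext Lim
    intro n
    obtain ⟨hloc, r', hcont, hr', hrig, hD, hart⟩ := level_data Ls n
    rw [AlgHom.commutes, ← h n hloc r' hr' hrig, lin_univ Ls Lim θ hθ ru hru]
    unfold lin
    simp only [hr']
  refine ⟨?_, ?_, ?_, ?_⟩
  · intro σ i j c hc
    obtain ⟨hloc, r', hcont, hr', hrig, hD, hart⟩ := level_data Ls 0
    have h := hrig.lifts σ i j c hc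
    intro hu
    apply h
    have h1 := hu.map (Lim.q 0)
    rwa [map_sub, AlgHom.commutes, q_univ Ls Lim θ hθ ru hru, ← hr' σ] at h1
  · have := hlin E.e11 0 1 0 (fun n _ r' _ hrig => by rw [hrig.diag01, map_zero])
    rwa [map_zero] at this
  · have := hlin E.e11 1 0 0 (fun n _ r' _ hrig => by rw [hrig.diag10, map_zero])
    rwa [map_zero] at this
  · have := hlin E.e12 0 1 1 (fun n _ r' _ hrig => by rw [hrig.one01, map_one])
    rwa [map_one] at this


include hθ hru in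
theorem isOfType_univ (hcont : MatCont ru) : 𝒟 (ofMatrix ru hcont) := by
  rw [h𝒟.iff_forall_surjective Lim.instIsLocalHom Lim.residue_surjective]
  intro B _ _ _ hB q hq hqsurj
  have := hB.isArtinian
  obtain ⟨N, hN⟩ := exists_pow_succ_eq_bot B
  obtain ⟨hloc, r', hcont', hr', hrig, hD, hart⟩ := level_data Ls N
  have hker : ∀ y ∈ Ls.I N, (q.comp θ) y = 0 := by
    intro y hy
    have h1 : θ y ∈ RingHom.ker (Lim.q N) := by
      rw [RingHom.mem_ker, hθ]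
      exact Ideal.Quotient.eq_zero_iff_mem.mpr hy
    rw [Lim.ker_q] at h1
    have h3 := map_pow_maximalIdeal (q : Lim.R →+* B) hq _ h1
    rw [hN] at h3
    exact h3
  let χ : (TautRing 𝒪 GQ ⧸ Ls.I N) →ₐ[𝒪] B := Ideal.Quotient.liftₐ (Ls.I N) (q.comp θ) hker
  have hχ : IsLocalHom (χ : (TautRing 𝒪 GQ ⧸ Ls.I N) →+* B) :=
    isLocalHom_algHom hB.isLocalHom hB.residue_surjective χ
  have hmap : mapRep (χ : (TautRing 𝒪 GQ ⧸ Ls.I N) →+* B) r' = mapRep (q : Lim.R →+* B) ru := by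
    apply MonoidHom.ext
    intro g
    ext i j
    rw [mapRep_apply, mapRep_apply, hr' g, hru]
    rfl
  have h1 : 𝒟 ((ofMatrix r' hcont').baseChangeAlong (χ : (TautRing 𝒪 GQ ⧸ Ls.I N) →+* B) hχ) :=
    h𝒟.baseChangeAlong hart hB χ hχ hD
  have h2 : 𝒟 (ofMatrix (mapRep (χ : (TautRing 𝒪 GQ ⧸ Ls.I N) →+* B) r') (hcont'.map _ hχ)) :=
    h𝒟.of_isEquiv hB (ofMatrix_baseChangeAlong_isEquiv _ hχ r' hcont') h1
  rw [ofMatrix_congr hmap _ (hcont.map _ hq)] at h2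
  exact h𝒟.of_isEquiv hB ⟨(ofMatrix_baseChangeAlong_isEquiv _ hq ru hcont).some.symm⟩ h2

/-- evaluation at a rigid deformation over a complete ring kills the level ideals
modulo the corresponding powers of the maximal ideal -/
theorem eval_kills (A : Type) [CommRing A] [IsLocalRing A] [IsNoetherianRing A] [Algebra 𝒪 A]
    (hlocA : IsLocalHom (algebraMap 𝒪 A))
    (hsurjA : Function.Surjective (residue A ∘ algebraMap 𝒪 A))
    (rA : GQ →* M2 A) (hcontA : MatCont rA) (hrigA : IsRigid E rA)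
    (hDA : ∀ ⦃B : Type⦄ [CommRing B] [IsLocalRing B] [Algebra 𝒪 B], IsArtinianTestAlgebra 𝒪 B →
        ∀ (q : A →ₐ[𝒪] B) (hq : IsLocalHom (q : A →+* B)), Function.Surjective q →
          𝒟 ((ofMatrix rA hcontA).baseChangeAlong (q : A →+* B) hq))
    (n : ℕ) (y : TautRing 𝒪 GQ) (hy : y ∈ Ls.I n) :
    MvPolynomial.aeval (fun p : GQ × Fin 2 × Fin 2 => rA p.1 p.2.1 p.2.2) y ∈
      maximalIdeal A ^ (n + 1) := by
  obtain ⟨hlocq, hart, hpow, hmk⟩ := quotient_test A hlocA hsurjA n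
  let p : A →ₐ[𝒪] (A ⧸ maximalIdeal A ^ (n + 1)) := Ideal.Quotient.mkₐ 𝒪 _
  have hp : IsLocalHom (p : A →+* (A ⧸ maximalIdeal A ^ (n + 1))) := hmk
  have hrig : (rigidProblem ρbar 𝒟 E h𝒟 hbar hfin).Rig (A ⧸ maximalIdeal A ^ (n + 1))
      (fun g => (rA g).map p) :=
    ⟨mapRep (p : A →+* (A ⧸ maximalIdeal A ^ (n + 1))) rA, fun g => rfl, hrigA.map E p hp,
      hcontA.map _ hp, h𝒟.of_isEquiv hart (ofMatrix_baseChangeAlong_isEquiv _ hp rA hcontA)
        (hDA hart p hp Ideal.Quotient.mk_surjective)⟩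
  obtain ⟨φ, hφ, -⟩ := Ls.universal n hart hpow hrig
  have h1 : φ.comp (Ideal.Quotient.mkₐ 𝒪 (Ls.I n)) =
      p.comp (MvPolynomial.aeval (fun p : GQ × Fin 2 × Fin 2 => rA p.1 p.2.1 p.2.2)) := by
    apply MvPolynomial.algHom_ext
    rintro ⟨g, i, j⟩
    have h2 := congrFun (congrFun (hφ g) i) j
    simp only [AlgHom.coe_comp, Function.comp_apply, MvPolynomial.aeval_X]
    exact h2
  have h3 := DFunLike.congr_fun h1 y
  simp only [AlgHom.coe_comp, Function.comp_apply, Ideal.Quotient.mkₐ_eq_mk] at h3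
  rw [Ideal.Quotient.eq_zero_iff_mem.mpr hy, map_zero] at h3
  exact Ideal.Quotient.eq_zero_iff_mem.mp h3.symm

include hθ hru in
theorem universal_univ (hcont : MatCont ru)
    (A : Type) [CommRing A] [IsLocalRing A] [IsNoetherianRing A]
    [IsAdicComplete (maximalIdeal A) A] [Algebra 𝒪 A] [IsLocalHom (algebraMap 𝒪 A)]
    (hsurj : Function.Surjective (residue A ∘ algebraMap 𝒪 A))
    (ρA : GaloisRepAdic A) (hDA : 𝒟 ρA)
    (hres : ρA.residual.IsEquiv (ρbar.baseChangeAlong (ResidueField.map (algebraMap 𝒪 A)))) :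
    ∃! φ : Lim.R →ₐ[𝒪] A, ∃ hφ : IsLocalHom (φ : Lim.R →+* A),
      ((ofMatrix ru hcont).baseChangeAlong (φ : Lim.R →+* A) hφ).IsEquiv ρA := by
  have hrig := isRigid_univ Ls Lim θ hθ ru hru
  obtain ⟨rA, hcontA, hrigA, ⟨eA⟩⟩ := exists_rigid_ofMatrix ρbar E ρA hres
  have hDA' : ∀ ⦃B : Type⦄ [CommRing B] [IsLocalRing B] [Algebra 𝒪 B],
      IsArtinianTestAlgebra 𝒪 B →
        ∀ (q : A →ₐ[𝒪] B) (hq : IsLocalHom (q : A →+* B)), Function.Surjective q →
          𝒟 ((ofMatrix rA hcontA).baseChangeAlong (q : A →+* B) hq) :=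
    fun B _ _ _ hB q hq hqs => h𝒟.of_isEquiv hB ⟨eA.baseChangeAlong (q : A →+* B) hq⟩
      ((h𝒟.iff_forall_surjective inferInstance hsurj ρA).mp hDA hB q hq hqs)
  obtain ⟨φ, hφθ⟩ := exists_hom Lim θ hθ A
    (MvPolynomial.aeval (fun p : GQ × Fin 2 × Fin 2 => rA p.1 p.2.1 p.2.2))
    (fun n y hy => eval_kills Ls A inferInstance hsurj rA hcontA hrigA hDA' n y hy)
  have hloc : ∀ φ' : Lim.R →ₐ[𝒪] A, IsLocalHom (φ' : Lim.R →+* A) :=
    fun φ' => isLocalHom_algHom inferInstance hsurj φ'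
  have hmapφ : mapRep (φ : Lim.R →+* A) ru = rA := by
    apply MonoidHom.ext
    intro g
    ext i j
    rw [mapRep_apply, hru]
    have h1 := DFunLike.congr_fun hφθ (MvPolynomial.X (g, i, j))
    rw [AlgHom.comp_apply, MvPolynomial.aeval_X] at h1
    exact h1
  refine ⟨φ, ⟨hloc φ, ?_⟩, ?_⟩
  · obtain ⟨e1⟩ := ofMatrix_baseChangeAlong_isEquiv (φ : Lim.R →+* A) (hloc φ) ru hcont
    rw [ofMatrix_congr hmapφ _ hcontA] at e1
    exact ⟨e1.trans eA.symm⟩
  · rintro φ' ⟨hφ', ⟨e'⟩⟩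
    obtain ⟨e1⟩ := ofMatrix_baseChangeAlong_isEquiv (φ' : Lim.R →+* A) hφ' ru hcont
    have hrig' : IsRigid E (mapRep (φ' : Lim.R →+* A) ru) := hrig.map E φ' hφ'
    have he : (ofMatrix rA hcontA).IsEquiv
        (ofMatrix (mapRep (φ' : Lim.R →+* A) ru) (hcont.map _ hφ')) :=
      ⟨eA.symm.trans (e'.symm.trans e1)⟩
    have heq : mapRep (φ' : Lim.R →+* A) ru = rA :=
      IsRigid.eq_of_isEquiv E hrigA hrig' hcontA _ he
    have h1 : φ'.comp θ = φ.comp θ := by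
      rw [hφθ]
      apply MvPolynomial.algHom_ext
      rintro ⟨g, i, j⟩
      rw [AlgHom.comp_apply, MvPolynomial.aeval_X, ← hru, ← heq]
      rfl
    exact hom_ext Lim θ hθ A φ' φ hφ' (hloc φ) h1

end Specific

/-- **Existence of the universal deformation ring** (assembly of tracks T1-T4). -/
theorem main
    (𝒪 : Type) [CommRing 𝒪] [IsDomain 𝒪] [IsDiscreteValuationRing 𝒪]
    [IsAdicComplete (IsLocalRing.maximalIdeal 𝒪) 𝒪] [Finite (IsLocalRing.ResidueField 𝒪)]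
    (ρbar : ResidualGaloisRep (IsLocalRing.ResidueField 𝒪))
    (𝒟 : ∀ ⦃A : Type⦄ [CommRing A] [IsLocalRing A] [Algebra 𝒪 A], GaloisRepAdic A → Prop)
    (habs : ρbar.IsAbsolutelyIrreducible)
    (h𝒟 : GaloisRep.IsDeformationCondition 𝒪 𝒟)
    (hbar : 𝒟 (GaloisRepAdic.ofResidualGaloisRep ρbar))
    (hfin : GaloisRep.TangentFinite 𝒪 ρbar 𝒟) :
    Nonempty (GaloisRep.DeformationRingData 𝒪 ρbar 𝒟) := by
  obtain ⟨E⟩ := exists_rigidData ρbar habs
  obtain ⟨Ls⟩ := exists_levelSystem (rigidProblem ρbar 𝒟 E h𝒟 hbar hfin)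
  obtain ⟨Lim⟩ := exists_limitRing (resS (rigidProblem ρbar 𝒟 E h𝒟 hbar hfin)) Ls.I
    (fun n => (Ls.isLevel n).pow_le) (fun n => (Ls.isLevel n).le)
    (fun n => (Ls.isLevel n).finite) Ls.mono Ls.le_sup Ls.s Ls.s_mem Ls.gen
  obtain ⟨θ, hθ⟩ := exists_theta Lim
  obtain ⟨ru, hru⟩ := exists_univRep Ls Lim θ hθ
  have hcont : MatCont ru := matCont_univ Ls Lim θ hθ ru hru
  have hrig : IsRigid E ru := isRigid_univ Ls Lim θ hθ ru hru
  exact ⟨{
    R := Lim.R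
    residue_surjective := Lim.residue_surjective
    absIrr := habs
    ρ := ofMatrix ru hcont
    isOfType := isOfType_univ Ls Lim θ hθ ru hru hcont
    residual_isEquiv := residual_isEquiv_of_liftsRes ρbar ru hcont hrig.lifts
    universal := fun A _ _ _ _ _ _ hsurj ρA hDA hres =>
      universal_univ Ls Lim θ hθ ru hru hcont A hsurj ρA hDA hres }⟩

end Univ

end

end Fermat.Agent.S53
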