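import Fermat.Agent.S53.Residual

set_option autoImplicit false

namespace Fermat.Agent.S53

open IsLocalRing Matrix

noncomputable section

section BurnsideGeneric

variable {G K : Type} [Monoid G] [Field K]

/-- a singular nonzero `2 × 2` matrix is a product column × row -/
theorem exists_vecMulVec_of_mulVec_eq_zero (b : M2 K) (hb : b ≠ 0) (x : Fin 2 → K) (hx : x ≠ 0)
    (hbx : b *ᵥ x = 0) : ∃ u w : Fin 2 → K, u ≠ 0 ∧ w ≠ 0 ∧ b = vecMulVec u w := by
  have h0 : ∀ i, b i 0 * x 0 + b i 1 * x 1 = 0 := by
    intro i
    have := congrFun hbx i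
    simpa [Matrix.mulVec, dotProduct, Fin.sum_univ_two] using this
  by_cases hx1 : x 1 = 0
  · have hx0 : x 0 ≠ 0 := by
      intro hx0
      apply hx
      funext i
      fin_cases i
      · exact hx0
      · exact hx1
    have hb0 : ∀ i, b i 0 = 0 := by
      intro i
      have := h0 i
      rw [hx1, mul_zero, add_zero] at this
      exact (mul_eq_zero.mp this).resolve_right hx0
    refine ⟨fun i => b i 1, ![0, 1], ?_, ?_, ?_⟩
    · intro hu
      apply hb
      ext i j
      fin_cases j
      · exact hb0 i
      · exact congrFun hu i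
    · intro hw
      have := congrFun hw 1
      simp at this
    · ext i j
      fin_cases j
      · simp [vecMulVec_apply, hb0 i]
      · simp [vecMulVec_apply]
  · have hb1 : ∀ i, b i 1 = b i 0 * (-(x 0 / x 1)) := by
      intro i
      have := h0 i
      field_simp
      linear_combination this
    refine ⟨fun i => b i 0, ![1, -(x 0 / x 1)], ?_, ?_, ?_⟩
    · intro hu
      apply hb
      ext i j
      have hi : b i 0 = 0 := congrFun hu i
      fin_cases j
      · exact hi
      · show b i 1 = 0
        rw [hb1 i, hi, zero_mul]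
    · intro hw
      have := congrFun hw 0
      simp at this
    · ext i j
      fin_cases j
      · simp [vecMulVec_apply]
      · simp only [vecMulVec_apply]
        exact hb1 i

/-- Burnside's theorem in dimension two: the span of an irreducible matrix monoid over an
algebraically closed field contains all matrix units. -/
theorem burnside_single [IsAlgClosed K] (ρ : G →* M2 K)
    (hirr : ∀ W : Submodule K (Fin 2 → K), (∀ g, ∀ x ∈ W, ρ g *ᵥ x ∈ W) → W = ⊥ ∨ W = ⊤)
    (i j : Fin 2) : Matrix.single i j (1 : K) ∈ Submodule.span K (Set.range ρ) := by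
  have hone : (1 : M2 K) ∈ Submodule.span K (Set.range ρ) :=
    Submodule.subset_span ⟨1, map_one ρ⟩
  have hρ : ∀ g, ρ g ∈ Submodule.span K (Set.range ρ) := fun g => Submodule.subset_span ⟨g, rfl⟩
  have hmul : ∀ a ∈ Submodule.span K (Set.range ρ), ∀ b ∈ Submodule.span K (Set.range ρ),
      a * b ∈ Submodule.span K (Set.range ρ) := by
    intro a ha b hb
    induction ha using Submodule.span_induction with
    | mem a ha =>
      obtain ⟨g, rfl⟩ := ha
      induction hb using Submodule.span_induction with
      | mem b hb =>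
        obtain ⟨h, rfl⟩ := hb
        rw [← map_mul]
        exact hρ _
      | zero => rw [mul_zero]; exact Submodule.zero_mem _
      | add x y _ _ hx hy => rw [mul_add]; exact Submodule.add_mem _ hx hy
      | smul c x _ hx => rw [mul_smul_comm]; exact Submodule.smul_mem _ c hx
    | zero => rw [zero_mul]; exact Submodule.zero_mem _
    | add x y _ _ hx hy => rw [add_mul]; exact Submodule.add_mem _ hx hy
    | smul c x _ hx => rw [smul_mul_assoc]; exact Submodule.smul_mem _ c hx
  -- (i) orbits of nonzero column vectors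
  have h1 : ∀ u : Fin 2 → K, u ≠ 0 → ∀ t : Fin 2 → K,
      ∃ a ∈ Submodule.span K (Set.range ρ), a *ᵥ u = t := by
    intro u hu t
    let W : Submodule K (Fin 2 → K) :=
      { carrier := {t | ∃ a ∈ Submodule.span K (Set.range ρ), a *ᵥ u = t}
        add_mem' := by
          rintro _ _ ⟨a, ha, rfl⟩ ⟨b, hb, rfl⟩
          exact ⟨a + b, Submodule.add_mem _ ha hb, Matrix.add_mulVec _ _ _⟩
        zero_mem' := ⟨0, Submodule.zero_mem _, Matrix.zero_mulVec _⟩
        smul_mem' := by
          rintro c _ ⟨a, ha, rfl⟩
          exact ⟨c • a, Submodule.smul_mem _ c ha, Matrix.smul_mulVec _ _ _⟩ }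
    have hW := hirr W (by
      rintro g _ ⟨a, ha, rfl⟩
      exact ⟨ρ g * a, hmul _ (hρ g) _ ha, (Matrix.mulVec_mulVec _ _ _).symm⟩)
    rcases hW with hW | hW
    · exfalso
      have hmem : u ∈ W := ⟨1, hone, Matrix.one_mulVec u⟩
      rw [hW] at hmem
      exact hu ((Submodule.mem_bot K).mp hmem)
    · have hmem : t ∈ W := by rw [hW]; exact Submodule.mem_top
      exact hmem
  -- (ii) orbits of nonzero row vectors
  have h2 : ∀ w : Fin 2 → K, w ≠ 0 → ∀ t : Fin 2 → K,
      ∃ b ∈ Submodule.span K (Set.range ρ), w ᵥ* b = t := by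
    intro w hw t
    let W' : Submodule K (Fin 2 → K) :=
      { carrier := {t | ∃ b ∈ Submodule.span K (Set.range ρ), w ᵥ* b = t}
        add_mem' := by
          rintro _ _ ⟨a, ha, rfl⟩ ⟨b, hb, rfl⟩
          exact ⟨a + b, Submodule.add_mem _ ha hb, Matrix.vecMul_add _ _ _⟩
        zero_mem' := ⟨0, Submodule.zero_mem _, Matrix.vecMul_zero _⟩
        smul_mem' := by
          rintro c _ ⟨a, ha, rfl⟩
          exact ⟨c • a, Submodule.smul_mem _ c ha, Matrix.vecMul_smul _ _ _⟩ }
    have hW' : W' = ⊤ := by
      by_contra hne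
      obtain ⟨f, hf0, hf⟩ := Submodule.exists_le_ker_of_lt_top W' (lt_top_iff_ne_top.mpr hne)
      let x : Fin 2 → K := fun i => f (Pi.single i 1)
      have hfx : ∀ t : Fin 2 → K, f t = t ⬝ᵥ x := by
        intro t
        have ht : t = ∑ i, t i • (Pi.single i (1 : K) : Fin 2 → K) := by
          funext l
          simp [Finset.sum_apply, Pi.single_apply]
        conv_lhs => rw [ht]
        simp [dotProduct, x]
      have hx : x ≠ 0 := by
        intro hx
        apply hf0
        refine LinearMap.ext fun t => ?_
        rw [hfx, hx, dotProduct_zero, LinearMap.zero_apply]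
      let W₂ : Submodule K (Fin 2 → K) :=
        { carrier := {z | ∀ b ∈ Submodule.span K (Set.range ρ), w ⬝ᵥ (b *ᵥ z) = 0}
          add_mem' := by
            intro y z hy hz b hb
            rw [Matrix.mulVec_add, dotProduct_add, hy b hb, hz b hb, add_zero]
          zero_mem' := by
            intro b _
            rw [Matrix.mulVec_zero, dotProduct_zero]
          smul_mem' := by
            intro c z hz b hb
            rw [Matrix.mulVec_smul, dotProduct_smul, hz b hb, smul_zero] }
      have hW₂ := hirr W₂ (by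
        intro g z hz b hb
        rw [Matrix.mulVec_mulVec]
        exact hz _ (hmul _ hb _ (hρ g)))
      have hxW : x ∈ W₂ := by
        intro b hb
        rw [Matrix.dotProduct_mulVec, ← hfx]
        exact hf ⟨b, hb, rfl⟩
      rcases hW₂ with hW₂ | hW₂
      · rw [hW₂] at hxW
        exact hx ((Submodule.mem_bot K).mp hxW)
      · apply hw
        apply dotProduct_eq_zero
        intro z
        have hz : z ∈ W₂ := by rw [hW₂]; exact Submodule.mem_top
        have := hz 1 hone
        rwa [Matrix.one_mulVec] at this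
    have hmem : t ∈ W' := by rw [hW']; exact Submodule.mem_top
    exact hmem
  -- (iii) a non-scalar element
  have h3 : ∃ g, ∀ c : K, ρ g ≠ c • (1 : M2 K) := by
    by_contra hcon
    push Not at hcon
    have hW := hirr (Submodule.span K {(Pi.single 0 1 : Fin 2 → K)}) (by
      intro g x hx
      obtain ⟨c, hc⟩ := hcon g
      rw [hc, Matrix.smul_mulVec, Matrix.one_mulVec]
      exact Submodule.smul_mem _ c hx)
    rcases hW with hW | hW
    · have hmem : (Pi.single 0 1 : Fin 2 → K) ∈ Submodule.span K {(Pi.single 0 1 : Fin 2 → K)} :=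
        Submodule.mem_span_singleton_self _
      rw [hW] at hmem
      have := congrFun ((Submodule.mem_bot K).mp hmem) 0
      simp at this
    · have hmem : (Pi.single 1 1 : Fin 2 → K) ∈ Submodule.span K {(Pi.single 0 1 : Fin 2 → K)} := by
        rw [hW]; exact Submodule.mem_top
      obtain ⟨c, hc⟩ := Submodule.mem_span_singleton.mp hmem
      have := congrFun hc 1
      simp at this
  obtain ⟨g, hg⟩ := h3
  -- (iv) an eigenvalue
  obtain ⟨μ, hμ⟩ := Module.End.exists_eigenvalue (Matrix.toLin' (ρ g))
  obtain ⟨x, hx⟩ := hμ.exists_hasEigenvector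
  have hxe : ρ g *ᵥ x = μ • x := by
    have := hx.apply_eq_smul
    rwa [Matrix.toLin'_apply] at this
  have hb₀ : ρ g - μ • (1 : M2 K) ∈ Submodule.span K (Set.range ρ) :=
    Submodule.sub_mem _ (hρ g) (Submodule.smul_mem _ μ hone)
  have hb₀x : (ρ g - μ • (1 : M2 K)) *ᵥ x = 0 := by
    rw [Matrix.sub_mulVec, Matrix.smul_mulVec, Matrix.one_mulVec, hxe, sub_self]
  obtain ⟨u, w, hu, hw, huw⟩ := exists_vecMulVec_of_mulVec_eq_zero _ (sub_ne_zero.mpr (hg μ)) x
    hx.2 hb₀x
  obtain ⟨a, ha, hau⟩ := h1 u hu (Pi.single i 1)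
  obtain ⟨b, hb, hwb⟩ := h2 w hw (Pi.single j 1)
  have hfinal : a * (ρ g - μ • (1 : M2 K)) * b = Matrix.single i j (1 : K) := by
    rw [huw, Matrix.mul_vecMulVec, Matrix.vecMulVec_mul, hau, hwb,
      Matrix.single_eq_single_vecMulVec_single]
  rw [← hfinal]
  exact hmul _ (hmul _ ha _ hb₀) _ hb

end BurnsideGeneric

section Descent

variable {G k K : Type} [Field k] [Field K] [Algebra k K]

/-- descent of spanning from an extension field -/
theorem span_eq_top_of_single_mem (rb : G → M2 k)
    (h : ∀ i j, Matrix.single i j (1 : K) ∈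
      Submodule.span K (Set.range fun g => (rb g).map (algebraMap k K))) :
    Submodule.span k (Set.range rb) = ⊤ := by
  by_contra hne
  obtain ⟨f, hf0, hf⟩ := Submodule.exists_le_ker_of_lt_top _ (lt_top_iff_ne_top.mpr hne)
  let N : M2 k := fun i j => f (Matrix.single j i 1)
  have hfN : ∀ X : M2 k, f X = Matrix.trace (X * N) := by
    intro X
    conv_lhs => rw [Matrix.matrix_eq_sum_single X]
    have hs : ∀ i j, f (Matrix.single i j (X i j)) = X i j * N j i := by
      intro i j
      have h1 : Matrix.single i j (X i j) = X i j • Matrix.single i j (1 : k) := by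
        rw [Matrix.smul_single, smul_eq_mul, mul_one]
      rw [h1, map_smul, smul_eq_mul]
    simp only [map_sum, hs, Matrix.trace, Matrix.diag, Matrix.mul_apply]
  have hg : ∀ g, Matrix.trace (rb g * N) = 0 := by
    intro g
    rw [← hfN]
    exact hf (Submodule.subset_span ⟨g, rfl⟩)
  let F : M2 K →ₗ[K] K :=
    (Matrix.traceLinearMap (Fin 2) K K).comp (LinearMap.mulRight K (N.map (algebraMap k K)))
  have hF : Submodule.span K (Set.range fun g => (rb g).map (algebraMap k K)) ≤
      LinearMap.ker F := by
    rw [Submodule.span_le]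
    rintro _ ⟨g, rfl⟩
    show Matrix.trace ((rb g).map (algebraMap k K) * N.map (algebraMap k K)) = 0
    have h1 : Matrix.trace ((rb g).map (algebraMap k K) * N.map (algebraMap k K)) =
        algebraMap k K (Matrix.trace (rb g * N)) := by
      simp [Matrix.trace_fin_two, Matrix.mul_apply, Fin.sum_univ_two]
    rw [h1, hg, map_zero]
  apply hf0
  have hN : N = 0 := by
    ext i j
    have h1 : F (Matrix.single j i 1) = 0 := hF (h j i)
    have h2 : F (Matrix.single j i 1) = algebraMap k K (N i j) := by
      show Matrix.trace (Matrix.single j i (1 : K) * N.map (algebraMap k K)) = _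
      rw [Matrix.trace_fin_two]
      fin_cases i <;> fin_cases j <;> simp [Matrix.mul_apply, Matrix.single_apply]
    rw [h2] at h1
    exact (map_eq_zero_iff _ (algebraMap k K).injective).mp h1
  refine LinearMap.ext fun X => ?_
  rw [hfN, hN, mul_zero, Matrix.trace_zero, LinearMap.zero_apply]

end Descent

section ResidualBurnside

variable {𝒪 : Type} [CommRing 𝒪] [IsLocalRing 𝒪]

/-- absolute irreducibility in matrix form -/
theorem irreducible_resMatrix (ρbar : ResidualGaloisRep (ResidueField 𝒪))
    (habs : ρbar.IsAbsolutelyIrreducible)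
    (W : Submodule (AlgebraicClosure (ResidueField 𝒪))
      (Fin 2 → AlgebraicClosure (ResidueField 𝒪)))
    (hW : ∀ g, ∀ x ∈ W, (mapRep (algebraMap (ResidueField 𝒪)
      (AlgebraicClosure (ResidueField 𝒪))) (resMatrix ρbar) g) *ᵥ x ∈ W) :
    W = ⊥ ∨ W = ⊤ := by
  let bK : Module.Basis (Fin 2) (AlgebraicClosure (ResidueField 𝒪))
      (TensorProduct (ResidueField 𝒪) (AlgebraicClosure (ResidueField 𝒪)) ρbar.V) :=
    Algebra.TensorProduct.basis (AlgebraicClosure (ResidueField 𝒪)) (resBasis ρbar)
  have key : ∀ σ x, bK.equivFun ((ρbar.ρ σ).baseChange (AlgebraicClosure (ResidueField 𝒪)) x) =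
      (mapRep (algebraMap (ResidueField 𝒪) (AlgebraicClosure (ResidueField 𝒪)))
        (resMatrix ρbar) σ) *ᵥ bK.equivFun x := by
    intro σ x
    have h1 : mapRep (algebraMap (ResidueField 𝒪) (AlgebraicClosure (ResidueField 𝒪)))
        (resMatrix ρbar) σ = LinearMap.toMatrix bK bK
          ((ρbar.ρ σ).baseChange (AlgebraicClosure (ResidueField 𝒪))) := by
      rw [LinearMap.toMatrix_baseChange, ← resMatrix_apply]
      rfl
    rw [h1]
    exact (LinearMap.toMatrix_mulVec_repr bK bK _ x).symm
  have h := habs (W.comap bK.equivFun.toLinearMap) (by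
    intro σ x hx
    rw [Submodule.mem_comap] at hx ⊢
    show bK.equivFun ((ρbar.ρ σ).baseChange (AlgebraicClosure (ResidueField 𝒪)) x) ∈ W
    rw [key]
    exact hW σ _ hx)
  have hsurj : Function.Surjective bK.equivFun.toLinearMap := bK.equivFun.surjective
  rcases h with h | h
  · left
    rw [← Submodule.map_comap_eq_of_surjective hsurj W, h, Submodule.map_bot]
  · right
    rw [← Submodule.map_comap_eq_of_surjective hsurj W, h, Submodule.map_top,
      LinearMap.range_eq_top]
    exact hsurj

/-- Burnside data: group-algebra elements mapping to the matrix units `E₁₁`, `E₁₂` under `rb` -/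
structure RigidData (rb : GQ →* M2 (ResidueField 𝒪)) where
  e11 : GQ →₀ 𝒪
  e12 : GQ →₀ 𝒪
  h11 : (e11.sum fun g c => residue 𝒪 c • rb g) = Matrix.single 0 0 1
  h12 : (e12.sum fun g c => residue 𝒪 c • rb g) = Matrix.single 0 1 1

/-- (Burnside) absolute irreducibility gives rigidification data -/
theorem exists_rigidData (ρbar : ResidualGaloisRep (ResidueField 𝒪))
    (habs : ρbar.IsAbsolutelyIrreducible) : Nonempty (RigidData (resMatrix ρbar)) := by
  have hK : ∀ i j, Matrix.single i j (1 : AlgebraicClosure (ResidueField 𝒪)) ∈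
      Submodule.span (AlgebraicClosure (ResidueField 𝒪))
        (Set.range (mapRep (algebraMap (ResidueField 𝒪) (AlgebraicClosure (ResidueField 𝒪)))
          (resMatrix ρbar))) :=
    burnside_single _ (irreducible_resMatrix ρbar habs)
  have htop : Submodule.span (ResidueField 𝒪) (Set.range (resMatrix ρbar)) = ⊤ :=
    span_eq_top_of_single_mem (K := AlgebraicClosure (ResidueField 𝒪)) _ hK
  have hex : ∀ T : M2 (ResidueField 𝒪), ∃ e : GQ →₀ 𝒪,
      (e.sum fun g c => residue 𝒪 c • resMatrix ρbar g) = T := by
    intro T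
    have hT : T ∈ Submodule.span (ResidueField 𝒪) (Set.range (resMatrix ρbar)) := by
      rw [htop]; exact Submodule.mem_top
    obtain ⟨e, he⟩ := Finsupp.mem_span_range_iff_exists_finsupp.mp hT
    classical
    let s : ResidueField 𝒪 → 𝒪 := fun c =>
      if c = 0 then 0 else Function.surjInv residue_surjective c
    have hs0 : s 0 = 0 := if_pos rfl
    have hs : ∀ c, residue 𝒪 (s c) = c := by
      intro c
      by_cases hc : c = 0
      · simp [s, hc]
      · simp only [s, if_neg hc]
        exact Function.surjInv_eq residue_surjective c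
    refine ⟨e.mapRange s hs0, ?_⟩
    rw [Finsupp.sum_mapRange_index (by intro g; rw [map_zero, zero_smul])]
    simp only [hs]
    exact he
  obtain ⟨e11, h11⟩ := hex (Matrix.single 0 0 1)
  obtain ⟨e12, h12⟩ := hex (Matrix.single 0 1 1)
  exact ⟨⟨e11, e12, h11, h12⟩⟩

end ResidualBurnside

end

end Fermat.Agent.S53
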