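import Mathlib
import Fermat.Prelude.Def_GaloisRep_DeformationRingData
import Fermat.Prelude.Def_GaloisRep_DeformationCondition

set_option autoImplicit false

namespace Fermat.Agent.S53

open IsLocalRing

noncomputable section

/-- the absolute Galois group, as it appears in the Prelude -/
abbrev GQ : Type := AlgebraicClosure ℚ ≃ₐ[ℚ] AlgebraicClosure ℚ

abbrev M2 (A : Type) [CommRing A] : Type := Matrix (Fin 2) (Fin 2) A

section Helpers

variable {A : Type} [CommRing A]

theorem mem_smul_top_of_forall_mem (I : Ideal A) (w : Fin 2 → A) (h : ∀ i, w i ∈ I) :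
    w ∈ I • (⊤ : Submodule A (Fin 2 → A)) := by
  have hw : w = ∑ i, w i • (Pi.single i (1 : A) : Fin 2 → A) := by
    ext j
    simp [Finset.sum_apply, Pi.single_apply]
  rw [hw]
  exact Submodule.sum_mem _ fun i _ => Submodule.smul_mem_smul (h i) Submodule.mem_top

theorem repr_mem_of_mem_smul_top {V : Type} [AddCommGroup V] [Module A V] {ι : Type}
    (b : Module.Basis ι A V) (I : Ideal A) (x : V) (hx : x ∈ I • (⊤ : Submodule A V)) (i : ι) :
    b.repr x i ∈ I := by
  refine Submodule.smul_induction_on (p := fun x => b.repr x i ∈ I) hx ?_ ?_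
  · intro a ha w _
    rw [map_smul, Finsupp.smul_apply, smul_eq_mul]
    exact I.mul_mem_right _ ha
  · intro x y hx hy
    rw [map_add, Finsupp.add_apply]
    exact I.add_mem hx hy

theorem mul_mul_apply_mem (I : Ideal A) (M N M' : M2 A) (h : ∀ i j, N i j ∈ I) (i j : Fin 2) :
    (M * N * M') i j ∈ I := by
  rw [Matrix.mul_apply]
  refine I.sum_mem fun k _ => I.mul_mem_right _ ?_
  rw [Matrix.mul_apply]
  exact I.sum_mem fun l _ => I.mul_mem_left _ (h l k)

end Helpers

section MatrixModel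

variable {A : Type} [CommRing A] [IsLocalRing A]

/-- adic continuity of a matrix representation -/
def MatCont (r : GQ →* M2 A) : Prop :=
  ∀ n : ℕ, ∃ L : IntermediateField ℚ (AlgebraicClosure ℚ), FiniteDimensional ℚ L ∧
    ∀ σ : GQ, (∀ x ∈ L, σ x = x) → ∀ i j, (r σ - 1) i j ∈ maximalIdeal A ^ n

/-- exact finite level (the right notion over Artinian rings) -/
def MatFin (r : GQ →* M2 A) : Prop :=
  ∃ L : IntermediateField ℚ (AlgebraicClosure ℚ), FiniteDimensional ℚ L ∧
    ∀ σ : GQ, (∀ x ∈ L, σ x = x) → r σ = 1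

theorem MatFin.matCont {r : GQ →* M2 A} (h : MatFin r) : MatCont r := by
  intro n
  obtain ⟨L, hL, h1⟩ := h
  refine ⟨L, hL, fun σ hσ i j => ?_⟩
  rw [h1 σ hσ, sub_self]
  exact Submodule.zero_mem _

theorem MatCont.matFin {r : GQ →* M2 A} (h : MatCont r) (n : ℕ) (hn : maximalIdeal A ^ n = ⊥) :
    MatFin r := by
  obtain ⟨L, hL, h1⟩ := h n
  refine ⟨L, hL, fun σ hσ => ?_⟩
  rw [← sub_eq_zero]
  ext i j
  have := h1 σ hσ i j
  rw [hn] at this
  simpa using this

/-- the `GaloisRepAdic` on `Fin 2 → A` attached to a matrix representation -/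
def ofMatrix (r : GQ →* M2 A) (hr : MatCont r) : GaloisRepAdic A where
  V := Fin 2 → A
  finrank_eq := by simp
  ρ := (Matrix.toLinAlgEquiv' (R := A) (n := Fin 2)).toAlgHom.toRingHom.toMonoidHom.comp r
  isAdicContinuous := by
    intro n
    obtain ⟨L, hL, h1⟩ := hr n
    refine ⟨L, hL, fun σ hσ v => ?_⟩
    apply mem_smul_top_of_forall_mem
    intro i
    have h2 : ((Matrix.toLinAlgEquiv' (R := A) (n := Fin 2)).toAlgHom.toRingHom.toMonoidHom.comp r) σ v
        - v = (r σ - 1).mulVec v := by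
      rw [Matrix.sub_mulVec, Matrix.one_mulVec]
      rfl
    rw [h2, Matrix.mulVec, dotProduct]
    exact Ideal.sum_mem _ fun j _ => Ideal.mul_mem_right _ _ (h1 σ hσ i j)

@[simp] theorem ofMatrix_ρ_apply (r : GQ →* M2 A) (hr : MatCont r) (σ : GQ) (v : Fin 2 → A) :
    (ofMatrix r hr).ρ σ v = (r σ).mulVec v := rfl

/-- push a matrix representation along a ring hom -/
def mapRep {B : Type} [CommRing B] (φ : A →+* B) (r : GQ →* M2 A) : GQ →* M2 B :=
  (RingHom.mapMatrix φ).toMonoidHom.comp r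

omit [IsLocalRing A] in
@[simp] theorem mapRep_apply {B : Type} [CommRing B] (φ : A →+* B) (r : GQ →* M2 A) (σ : GQ)
    (i j : Fin 2) : mapRep φ r σ i j = φ (r σ i j) := rfl

/-- conjugate a matrix representation by an invertible matrix -/
def conjRep (M : (M2 A)ˣ) (r : GQ →* M2 A) : GQ →* M2 A where
  toFun σ := (M : M2 A) * r σ * ((M⁻¹ : (M2 A)ˣ) : M2 A)
  map_one' := by simp
  map_mul' σ τ := by
    simp only [map_mul]
    calc (M : M2 A) * (r σ * r τ) * ((M⁻¹ : (M2 A)ˣ) : M2 A)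
        = (M : M2 A) * r σ * (((M⁻¹ : (M2 A)ˣ) : M2 A) * (M : M2 A)) * r τ *
            ((M⁻¹ : (M2 A)ˣ) : M2 A) := by simp [mul_assoc]
      _ = _ := by simp [mul_assoc]

omit [IsLocalRing A] in
theorem conjRep_apply (M : (M2 A)ˣ) (r : GQ →* M2 A) (σ : GQ) :
    conjRep M r σ = (M : M2 A) * r σ * ((M⁻¹ : (M2 A)ˣ) : M2 A) := rfl

variable {B : Type} [CommRing B] [IsLocalRing B]

theorem MatCont.map {r : GQ →* M2 A} (hr : MatCont r) (φ : A →+* B) (hφ : IsLocalHom φ) :
    MatCont (mapRep φ r) := by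
  intro n
  obtain ⟨L, hL, h1⟩ := hr n
  refine ⟨L, hL, fun σ hσ i j => ?_⟩
  have hmap : (maximalIdeal A ^ n).map φ ≤ maximalIdeal B ^ n := by
    rw [Ideal.map_pow]
    exact Ideal.pow_right_mono (Ideal.map_le_iff_le_comap.mpr fun a ha =>
      Ideal.mem_comap.mpr (haveI := hφ; map_nonunit φ a ha)) n
  have h2 : (mapRep φ r σ - 1) i j = φ ((r σ - 1) i j) := by
    simp only [Matrix.sub_apply, mapRep_apply, map_sub]
    congr 1
    by_cases hij : i = j
    · subst hij; simp
    · simp [hij]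
  rw [h2]
  exact hmap (Ideal.mem_map_of_mem φ (h1 σ hσ i j))

omit [IsLocalRing A] [IsLocalRing B] in
theorem MatFin.map {r : GQ →* M2 A} (hr : MatFin r) (φ : A →+* B) : MatFin (mapRep φ r) := by
  obtain ⟨L, hL, h1⟩ := hr
  refine ⟨L, hL, fun σ hσ => ?_⟩
  show (RingHom.mapMatrix φ) (r σ) = 1
  rw [h1 σ hσ, map_one]

omit [IsLocalRing A] [IsLocalRing B] in
theorem MatFin.of_map_injective {r : GQ →* M2 A} (φ : A →+* B) (hφ : Function.Injective φ)
    (hr : MatFin (mapRep φ r)) : MatFin r := by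
  obtain ⟨L, hL, h1⟩ := hr
  refine ⟨L, hL, fun σ hσ => ?_⟩
  have h2 : (RingHom.mapMatrix φ) (r σ) = (RingHom.mapMatrix φ) 1 := by
    rw [map_one]
    exact h1 σ hσ
  ext i j
  apply hφ
  have := congrFun (congrFun h2 i) j
  simpa using this

theorem MatCont.conj {r : GQ →* M2 A} (hr : MatCont r) (M : (M2 A)ˣ) : MatCont (conjRep M r) := by
  intro n
  obtain ⟨L, hL, h1⟩ := hr n
  refine ⟨L, hL, fun σ hσ i j => ?_⟩
  have h2 : conjRep M r σ - 1 = (M : M2 A) * (r σ - 1) * ((M⁻¹ : (M2 A)ˣ) : M2 A) := by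
    rw [conjRep_apply, mul_sub, sub_mul, mul_one, Units.mul_inv]
  rw [h2]
  exact mul_mul_apply_mem _ _ _ _ (h1 σ hσ) i j

omit [IsLocalRing A] in
theorem MatFin.conj {r : GQ →* M2 A} (hr : MatFin r) (M : (M2 A)ˣ) : MatFin (conjRep M r) := by
  obtain ⟨L, hL, h1⟩ := hr
  refine ⟨L, hL, fun σ hσ => ?_⟩
  rw [conjRep_apply, h1 σ hσ, mul_one, Units.mul_inv]

omit [IsLocalRing A] [IsLocalRing B] in
theorem piScalarRight_baseChange_toLin' [Algebra A B] (N : M2 A)
    (x : TensorProduct A B (Fin 2 → A)) :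
    TensorProduct.piScalarRight A B B (Fin 2) ((Matrix.toLin' N).baseChange B x) =
      ((RingHom.mapMatrix (algebraMap A B)) N).mulVec
        (TensorProduct.piScalarRight A B B (Fin 2) x) := by
  induction x using TensorProduct.induction_on with
  | zero => simp
  | tmul b v =>
    rw [LinearMap.baseChange_tmul, TensorProduct.piScalarRight_apply,
      TensorProduct.piScalarRightHom_tmul, TensorProduct.piScalarRight_apply,
      TensorProduct.piScalarRightHom_tmul]
    ext i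
    simp only [Matrix.toLin'_apply, Matrix.mulVec, dotProduct, RingHom.mapMatrix_apply,
      Matrix.map_apply, Algebra.smul_def, map_sum, map_mul, Finset.sum_mul]
    refine Finset.sum_congr rfl fun j _ => ?_
    ring
  | add x y hx hy =>
    rw [map_add, map_add, hx, hy, map_add, Matrix.mulVec_add]

/-- (B1) base change of `ofMatrix` is `ofMatrix` of the pushed-forward representation -/
theorem ofMatrix_baseChangeAlong_isEquiv (φ : A →+* B) (hφ : IsLocalHom φ) (r : GQ →* M2 A)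
    (hr : MatCont r) :
    ((ofMatrix r hr).baseChangeAlong φ hφ).IsEquiv (ofMatrix (mapRep φ r) (hr.map φ hφ)) := by
  let _ : Algebra A B := φ.toAlgebra
  refine ⟨{ toLinearEquiv := TensorProduct.piScalarRight A B B (Fin 2), map_apply := ?_ }⟩
  intro σ x
  exact piScalarRight_baseChange_toLin' (r σ) x

/-- matrix of a `GaloisRepAdic` in a basis -/
def matOfBasis (ρ : GaloisRepAdic A) (b : Module.Basis (Fin 2) A ρ.V) : GQ →* M2 A :=
  (LinearMap.toMatrixAlgEquiv b).toAlgHom.toRingHom.toMonoidHom.comp ρ.ρ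

theorem matOfBasis_apply (ρ : GaloisRepAdic A) (b : Module.Basis (Fin 2) A ρ.V) (σ : GQ) :
    matOfBasis ρ b σ = LinearMap.toMatrix b b (ρ.ρ σ) := rfl

theorem matCont_matOfBasis (ρ : GaloisRepAdic A) (b : Module.Basis (Fin 2) A ρ.V) :
    MatCont (matOfBasis ρ b) := by
  intro n
  obtain ⟨L, hL, h1⟩ := ρ.isAdicContinuous n
  refine ⟨L, hL, fun σ hσ i j => ?_⟩
  have h2 : (matOfBasis ρ b σ - 1) i j = b.repr (ρ.ρ σ (b j) - b j) i := by
    rw [matOfBasis_apply, Matrix.sub_apply, LinearMap.toMatrix_apply, map_sub, Finsupp.sub_apply,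
      Matrix.one_apply, Module.Basis.repr_self, Finsupp.single_apply]
    congr 1
    by_cases hij : i = j
    · subst hij; simp
    · simp [hij, Ne.symm hij]
  rw [h2]
  exact repr_mem_of_mem_smul_top b _ _ (h1 σ hσ (b j)) i

theorem isEquiv_ofMatrix_matOfBasis (ρ : GaloisRepAdic A) (b : Module.Basis (Fin 2) A ρ.V) :
    ρ.IsEquiv (ofMatrix (matOfBasis ρ b) (matCont_matOfBasis ρ b)) := by
  refine ⟨{ toLinearEquiv := b.equivFun, map_apply := ?_ }⟩
  intro σ x
  show b.equivFun (ρ.ρ σ x) = (LinearMap.toMatrix b b (ρ.ρ σ)).mulVec (b.equivFun x)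
  have := LinearMap.toMatrix_mulVec_repr b b (ρ.ρ σ) x
  exact this.symm

/-- (B2) every `GaloisRepAdic` is `ofMatrix` of something -/
theorem exists_ofMatrix_isEquiv (ρ : GaloisRepAdic A) :
    ∃ (r : GQ →* M2 A) (hr : MatCont r), ρ.IsEquiv (ofMatrix r hr) :=
  ⟨_, _, isEquiv_ofMatrix_matOfBasis ρ (Module.finBasisOfFinrankEq A ρ.V ρ.finrank_eq)⟩

omit [IsLocalRing A] in
theorem conj_mulVec_aux (M : (M2 A)ˣ) (N : M2 A) (x : Fin 2 → A) :
    (M : M2 A).mulVec (N.mulVec x) =
      ((M : M2 A) * N * ((M⁻¹ : (M2 A)ˣ) : M2 A)).mulVec ((M : M2 A).mulVec x) := by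
  rw [Matrix.mulVec_mulVec, Matrix.mulVec_mulVec, mul_assoc, mul_assoc, Units.inv_mul, mul_one]

/-- (B3) equivalence of `ofMatrix` = conjugacy -/
theorem ofMatrix_isEquiv_iff (r r' : GQ →* M2 A) (hr : MatCont r) (hr' : MatCont r') :
    (ofMatrix r hr).IsEquiv (ofMatrix r' hr') ↔ ∃ M : (M2 A)ˣ, r' = conjRep M r := by
  constructor
  · rintro ⟨e⟩
    let f : (Fin 2 → A) ≃ₗ[A] (Fin 2 → A) := e.toLinearEquiv
    have hf : ∀ σ (x : Fin 2 → A), f ((r σ).mulVec x) = (r' σ).mulVec (f x) := e.map_apply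
    let M : (M2 A)ˣ :=
      { val := LinearMap.toMatrix' (f : (Fin 2 → A) →ₗ[A] (Fin 2 → A))
        inv := LinearMap.toMatrix' (f.symm : (Fin 2 → A) →ₗ[A] (Fin 2 → A))
        val_inv := by
          rw [← LinearMap.toMatrix'_comp]
          simp
        inv_val := by
          rw [← LinearMap.toMatrix'_comp]
          simp }
    refine ⟨M, ?_⟩
    have hcomm : ∀ σ, (M : M2 A) * r σ = r' σ * (M : M2 A) := by
      intro σ
      have h1 : (M : M2 A) * r σ = LinearMap.toMatrix'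
          ((f : (Fin 2 → A) →ₗ[A] (Fin 2 → A)).comp (Matrix.toLin' (r σ))) := by
        rw [LinearMap.toMatrix'_comp, LinearMap.toMatrix'_toLin']
      have h2 : r' σ * (M : M2 A) = LinearMap.toMatrix'
          ((Matrix.toLin' (r' σ)).comp (f : (Fin 2 → A) →ₗ[A] (Fin 2 → A))) := by
        rw [LinearMap.toMatrix'_comp, LinearMap.toMatrix'_toLin']
      rw [h1, h2]
      congr 1
      apply LinearMap.ext
      intro x
      simp only [LinearMap.comp_apply, Matrix.toLin'_apply, LinearEquiv.coe_coe]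
      exact hf σ x
    apply MonoidHom.ext
    intro σ
    rw [conjRep_apply, hcomm σ, mul_assoc, Units.mul_inv, mul_one]
  · rintro ⟨M, rfl⟩
    let f : (Fin 2 → A) ≃ₗ[A] (Fin 2 → A) :=
      LinearEquiv.ofLinearMap (Matrix.toLin' (M : M2 A))
        (Matrix.toLin' ((M⁻¹ : (M2 A)ˣ) : M2 A))
        (by rw [← Matrix.toLin'_mul, Units.mul_inv, Matrix.toLin'_one])
        (by rw [← Matrix.toLin'_mul, Units.inv_mul, Matrix.toLin'_one])
    refine ⟨{ toLinearEquiv := f, map_apply := ?_ }⟩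
    intro σ x
    exact conj_mulVec_aux M (r σ) x

end MatrixModel

end

end Fermat.Agent.S53
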