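import Fermat.Agent.S53.Rigid
import Fermat.Agent.S53.ProblemDef

set_option autoImplicit false

namespace Fermat.Agent.S53

open IsLocalRing GaloisRep

noncomputable section

namespace Univ

/-- Any `𝒪`-algebra hom into a local `𝒪`-algebra with residue field `k` is local. -/
theorem isLocalHom_algHom {𝒪 : Type} [CommRing 𝒪] [IsLocalRing 𝒪]
    {A B : Type} [CommRing A] [IsLocalRing A] [Algebra 𝒪 A]
    [CommRing B] [IsLocalRing B] [Algebra 𝒪 B]
    (hB : IsLocalHom (algebraMap 𝒪 B))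
    (hBs : Function.Surjective (residue B ∘ algebraMap 𝒪 B)) (φ : A →ₐ[𝒪] B) :
    IsLocalHom (φ : A →+* B) := by
  constructor
  intro a ha
  by_contra hna
  obtain ⟨c, hc⟩ := hBs (residue B (φ a))
  have h1 : φ a - algebraMap 𝒪 B c ∈ maximalIdeal B := by
    rw [← residue_eq_zero_iff, map_sub, sub_eq_zero]
    exact hc.symm
  have hcu : IsUnit c := by
    by_contra hc'
    have h2 : algebraMap 𝒪 B c ∈ maximalIdeal B := fun h => hc' (hB.map_nonunit c h)
    have h3 : φ a ∈ maximalIdeal B := by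
      have := add_mem h1 h2
      simpa using this
    exact h3 ha
  have hu : IsUnit (a - algebraMap 𝒪 A c) := by
    have h2 : IsUnit (algebraMap 𝒪 A c) := hcu.map _
    by_contra h3
    have h4 : a - algebraMap 𝒪 A c ∈ maximalIdeal A := h3
    have ha' : a ∈ maximalIdeal A := hna
    have h5 : algebraMap 𝒪 A c ∈ maximalIdeal A := by
      have := sub_mem ha' h4
      simpa using this
    exact h5 h2
  have h6 := hu.map φ
  rw [map_sub, AlgHom.commutes] at h6
  exact h1 h6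

/-- existence of `n` with `𝔪^(n+1) = ⊥` in an Artinian local ring -/
theorem exists_pow_succ_eq_bot (A : Type) [CommRing A] [IsLocalRing A] [IsArtinianRing A] :
    ∃ n : ℕ, maximalIdeal A ^ (n + 1) = ⊥ := by
  obtain ⟨n, hn⟩ := IsArtinianRing.isNilpotent_jacobson_bot (R := A)
  rw [IsLocalRing.jacobson_eq_maximalIdeal ⊥ bot_ne_top] at hn
  refine ⟨n, ?_⟩
  rw [pow_succ, hn]
  simp

variable {𝒪 : Type} [CommRing 𝒪] [IsLocalRing 𝒪]

/-- entrywise set-theoretic lift of a residual matrix representation -/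
def rbtLift (rb : GQ →* M2 (ResidueField 𝒪)) : GQ → Matrix (Fin 2) (Fin 2) 𝒪 :=
  fun g => Matrix.of fun i j => Classical.choose (residue_surjective (rb g i j))

theorem residue_rbtLift (rb : GQ →* M2 (ResidueField 𝒪)) (g : GQ) (i j : Fin 2) :
    residue 𝒪 (rbtLift rb g i j) = rb g i j :=
  Classical.choose_spec (residue_surjective (rb g i j))

section

variable {A B : Type} [CommRing A] [IsLocalRing A] [Algebra 𝒪 A]
  [CommRing B] [IsLocalRing B] [Algebra 𝒪 B]

theorem lin_map (e : GQ →₀ 𝒪) (φ : A →ₐ[𝒪] B) (r : GQ →* M2 A) :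
    lin e (mapRep (φ : A →+* B) r) = (lin e r).map φ := by
  unfold lin
  ext i j
  simp only [Finsupp.sum, Matrix.map_apply, Matrix.sum_apply, Matrix.smul_apply, map_sum,
    smul_eq_mul, map_mul, AlgHom.commutes, mapRep_apply]
  rfl

end

/-- The concrete rigid-deformation predicate. -/
def RigPred
    (𝒟 : ∀ ⦃A : Type⦄ [CommRing A] [IsLocalRing A] [Algebra 𝒪 A], GaloisRepAdic A → Prop)
    {rb : GQ →* M2 (ResidueField 𝒪)} (E : RigidData rb)
    (A : Type) [CommRing A] [IsLocalRing A] [Algebra 𝒪 A]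
    (r : GQ → Matrix (Fin 2) (Fin 2) A) : Prop :=
  ∃ r' : GQ →* M2 A, (∀ g, r' g = r g) ∧ IsRigid E r' ∧ ∃ hr : MatCont r', 𝒟 (ofMatrix r' hr)


variable {𝒟 : ∀ ⦃A : Type⦄ [CommRing A] [IsLocalRing A] [Algebra 𝒪 A], GaloisRepAdic A → Prop}
  {rb : GQ →* M2 (ResidueField 𝒪)} {E : RigidData rb}

section Fields

variable {A B : Type} [CommRing A] [IsLocalRing A] [Algebra 𝒪 A]
  [CommRing B] [IsLocalRing B] [Algebra 𝒪 B]

theorem RigPred.residual {r : GQ → Matrix (Fin 2) (Fin 2) A} (h : RigPred 𝒟 E A r)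
    (g : GQ) (i j : Fin 2) :
    r g i j - algebraMap 𝒪 A (rbtLift rb g i j) ∈ maximalIdeal A := by
  obtain ⟨r', hr', hrig, -⟩ := h
  rw [← hr' g]
  exact hrig.lifts g i j _ (residue_rbtLift rb g i j)

theorem RigPred.map (h𝒟 : IsDeformationCondition 𝒪 𝒟)
    (hA : IsArtinianTestAlgebra 𝒪 A) (hB : IsArtinianTestAlgebra 𝒪 B) (φ : A →ₐ[𝒪] B)
    {r : GQ → Matrix (Fin 2) (Fin 2) A} (h : RigPred 𝒟 E A r) :
    RigPred 𝒟 E B (fun g => (r g).map φ) := by
  obtain ⟨r', hr', hrig, hcont, hD⟩ := h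
  have hφ : IsLocalHom (φ : A →+* B) := isLocalHom_algHom hB.isLocalHom hB.residue_surjective φ
  refine ⟨mapRep (φ : A →+* B) r', fun g => ?_, hrig.map E φ hφ, hcont.map _ hφ, ?_⟩
  · show mapRep (φ : A →+* B) r' g = (r g).map φ
    rw [← hr' g]; rfl
  · exact h𝒟.of_isEquiv hB (ofMatrix_baseChangeAlong_isEquiv _ hφ r' hcont)
      (h𝒟.baseChangeAlong hA hB φ hφ hD)

theorem exists_monoidHom_of_map_injective (φ : A →+* B) (hinj : Function.Injective φ)
    (r : GQ → Matrix (Fin 2) (Fin 2) A) (s : GQ →* M2 B) (hs : ∀ g, s g = (r g).map φ) :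
    ∃ r' : GQ →* M2 A, ∀ g, r' g = r g := by
  have hmapinj : Function.Injective (fun M : M2 A => M.map φ) := Matrix.map_injective hinj
  refine ⟨⟨⟨r, hmapinj ?_⟩, fun g h => hmapinj ?_⟩, fun _ => rfl⟩
  · show (r 1).map φ = (1 : M2 A).map φ
    rw [← hs 1, map_one, Matrix.map_one _ (map_zero φ) (map_one φ)]
  · show (r (g * h)).map φ = (r g * r h).map φ
    rw [← hs (g * h), map_mul, hs g, hs h, Matrix.map_mul]

theorem RigPred.of_injective (h𝒟 : IsDeformationCondition 𝒪 𝒟)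
    (hA : IsArtinianTestAlgebra 𝒪 A) (hB : IsArtinianTestAlgebra 𝒪 B) (φ : A →ₐ[𝒪] B)
    (hinj : Function.Injective φ)
    {r : GQ → Matrix (Fin 2) (Fin 2) A} (h : RigPred 𝒟 E B (fun g => (r g).map φ)) :
    RigPred 𝒟 E A r := by
  obtain ⟨r'', hr'', hrig, hcont, hD⟩ := h
  replace hr'' : ∀ g, r'' g = (r g).map φ := hr''
  have hφ : IsLocalHom (φ : A →+* B) := isLocalHom_algHom hB.isLocalHom hB.residue_surjective φ
  obtain ⟨r', hr'⟩ := exists_monoidHom_of_map_injective (φ : A →+* B) hinj r r'' hr''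
  have hmap : r'' = mapRep (φ : A →+* B) r' := MonoidHom.ext fun g => by
    rw [hr'' g, ← hr' g]; rfl
  subst hmap
  have := hB.isArtinian
  obtain ⟨n, hn⟩ := exists_pow_succ_eq_bot B
  have hfinB : MatFin (mapRep (φ : A →+* B) r') := hcont.matFin (n + 1) hn
  have hfinA : MatFin r' := MatFin.of_map_injective (φ : A →+* B) hinj hfinB
  refine ⟨r', hr', IsRigid.of_map_injective E φ hinj hrig, hfinA.matCont, ?_⟩
  exact h𝒟.of_baseChangeAlong_injective hA hB φ hφ hinj (h𝒟.of_isEquiv hB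
    ⟨(ofMatrix_baseChangeAlong_isEquiv _ hφ r' hfinA.matCont).some.symm⟩ hD)

end Fields

section FibreProduct

variable {A B C P : Type} [CommRing A] [IsLocalRing A] [Algebra 𝒪 A]
  [CommRing B] [IsLocalRing B] [Algebra 𝒪 B] [CommRing C] [IsLocalRing C] [Algebra 𝒪 C]
  [CommRing P] [IsLocalRing P] [Algebra 𝒪 P]

theorem RigPred.of_fibreProduct (h𝒟 : IsDeformationCondition 𝒪 𝒟)
    (hA : IsArtinianTestAlgebra 𝒪 A) (hB : IsArtinianTestAlgebra 𝒪 B)
    (hC : IsArtinianTestAlgebra 𝒪 C) (hP : IsArtinianTestAlgebra 𝒪 P)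
    (f : A →ₐ[𝒪] C) (g : B →ₐ[𝒪] C) (pA : P →ₐ[𝒪] A) (pB : P →ₐ[𝒪] B)
    (hcomm : f.comp pA = g.comp pB)
    (hinj : Function.Injective (fun x => (pA x, pB x)))
    (hsurj : ∀ a b, f a = g b → ∃ x, pA x = a ∧ pB x = b)
    {r : GQ → Matrix (Fin 2) (Fin 2) P}
    (h1 : RigPred 𝒟 E A (fun g => (r g).map pA)) (h2 : RigPred 𝒟 E B (fun g => (r g).map pB)) :
    RigPred 𝒟 E P r := by
  obtain ⟨rA, hrA, hrigA, hcontA, hDA⟩ := h1
  obtain ⟨rB, hrB, hrigB, hcontB, hDB⟩ := h2
  replace hrA : ∀ g, rA g = (r g).map pA := hrA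
  replace hrB : ∀ g, rB g = (r g).map pB := hrB
  have hpA : IsLocalHom (pA : P →+* A) := isLocalHom_algHom hA.isLocalHom hA.residue_surjective pA
  have hpB : IsLocalHom (pB : P →+* B) := isLocalHom_algHom hB.isLocalHom hB.residue_surjective pB
  have hx : ∀ x y : P, pA x = pA y → pB x = pB y → x = y := fun x y h1 h2 =>
    hinj (Prod.ext h1 h2)
  have hM : ∀ M N : M2 P, M.map pA = N.map pA → M.map pB = N.map pB → M = N := by
    intro M N h1 h2
    ext i j
    exact hx _ _ (congrFun (congrFun h1 i) j) (congrFun (congrFun h2 i) j)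
  obtain ⟨r', hr'⟩ : ∃ r' : GQ →* M2 P, ∀ g, r' g = r g := by
    refine ⟨⟨⟨r, hM _ _ ?_ ?_⟩, fun g h => hM _ _ ?_ ?_⟩, fun _ => rfl⟩
    · rw [← hrA 1, map_one, Matrix.map_one _ (map_zero pA) (map_one pA)]
    · rw [← hrB 1, map_one, Matrix.map_one _ (map_zero pB) (map_one pB)]
    · rw [← hrA (g * h), map_mul, hrA g, hrA h, Matrix.map_mul]
    · rw [← hrB (g * h), map_mul, hrB g, hrB h, Matrix.map_mul]
  have hmapA : rA = mapRep (pA : P →+* A) r' := MonoidHom.ext fun g => by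
    rw [hrA g, ← hr' g]; rfl
  have hmapB : rB = mapRep (pB : P →+* B) r' := MonoidHom.ext fun g => by
    rw [hrB g, ← hr' g]; rfl
  subst hmapA
  subst hmapB
  have hzero : ∀ e : GQ →₀ 𝒪, ∀ i j : Fin 2, ∀ c : 𝒪,
      lin e (mapRep (pA : P →+* A) r') i j = algebraMap 𝒪 A c →
      lin e (mapRep (pB : P →+* B) r') i j = algebraMap 𝒪 B c →
      lin e r' i j = algebraMap 𝒪 P c := by
    intro e i j c h1 h2
    apply hx
    · rw [AlgHom.commutes, ← h1, lin_map]; rfl
    · rw [AlgHom.commutes, ← h2, lin_map]; rfl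
  have hrig : IsRigid E r' := by
    refine ⟨fun σ i j c hc => ?_, ?_, ?_, ?_⟩
    · have h := hrigA.lifts σ i j c hc
      intro hu
      apply h
      have := hu.map pA
      rwa [map_sub, AlgHom.commutes] at this
    · have := hzero E.e11 0 1 0 (by rw [hrigA.diag01, map_zero]) (by rw [hrigB.diag01, map_zero])
      rwa [map_zero] at this
    · have := hzero E.e11 1 0 0 (by rw [hrigA.diag10, map_zero]) (by rw [hrigB.diag10, map_zero])
      rwa [map_zero] at this
    · have := hzero E.e12 0 1 1 (by rw [hrigA.one01, map_one]) (by rw [hrigB.one01, map_one])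
      rwa [map_one] at this
  have := hA.isArtinian
  have := hB.isArtinian
  obtain ⟨n, hn⟩ := exists_pow_succ_eq_bot A
  obtain ⟨m, hm⟩ := exists_pow_succ_eq_bot B
  obtain ⟨LA, hLA, hA1⟩ := hcontA.matFin (n + 1) hn
  obtain ⟨LB, hLB, hB1⟩ := hcontB.matFin (m + 1) hm
  have hfin : MatFin r' := by
    refine ⟨LA ⊔ LB, inferInstance, fun σ hσ => ?_⟩
    apply hM
    · have := hA1 σ (fun x hx => hσ x ((le_sup_left : LA ≤ LA ⊔ LB) hx))
      rw [Matrix.map_one _ (map_zero pA) (map_one pA)]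
      exact this
    · have := hB1 σ (fun x hx => hσ x ((le_sup_right : LB ≤ LA ⊔ LB) hx))
      rw [Matrix.map_one _ (map_zero pB) (map_one pB)]
      exact this
  refine ⟨r', hr', hrig, hfin.matCont, ?_⟩
  exact h𝒟.of_fibreProduct hA hB hC hP f g pA pB hpA hpB hcomm hinj hsurj
    (h𝒟.of_isEquiv hA ⟨(ofMatrix_baseChangeAlong_isEquiv _ hpA r' hfin.matCont).some.symm⟩ hDA)
    (h𝒟.of_isEquiv hB ⟨(ofMatrix_baseChangeAlong_isEquiv _ hpB r' hfin.matCont).some.symm⟩ hDB)

end FibreProduct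


section Base

theorem isArtinianTestAlgebra_residueField :
    IsArtinianTestAlgebra 𝒪 (ResidueField 𝒪) where
  isLocalHom := by
    rw [ResidueField.algebraMap_eq]; infer_instance
  residue_surjective := by
    rw [ResidueField.algebraMap_eq]
    exact (residue_surjective (R := ResidueField 𝒪)).comp (residue_surjective (R := 𝒪))
  isArtinian := inferInstance

theorem matFin_resMatrix (ρbar : ResidualGaloisRep (ResidueField 𝒪)) :
    MatFin (resMatrix ρbar) := by
  obtain ⟨L, hL, h⟩ := ρbar.factorsThroughFiniteLevel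
  refine ⟨L, hL, fun σ hσ => ?_⟩
  show LinearMap.toMatrixAlgEquiv _ (ρbar.ρ σ) = 1
  rw [h σ hσ, map_one]

theorem ofResidual_isEquiv_ofMatrix (ρbar : ResidualGaloisRep (ResidueField 𝒪))
    (h : MatCont (resMatrix ρbar)) :
    (GaloisRepAdic.ofResidualGaloisRep ρbar).IsEquiv (ofMatrix (resMatrix ρbar) h) := by
  refine ⟨⟨(Module.finBasisOfFinrankEq (ResidueField 𝒪) ρbar.V ρbar.finrank_eq).equivFun,
    fun σ x => ?_⟩⟩
  show (Module.finBasisOfFinrankEq (ResidueField 𝒪) ρbar.V ρbar.finrank_eq).equivFun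
      (ρbar.ρ σ x) =
    Matrix.toLinAlgEquiv' (LinearMap.toMatrixAlgEquiv
      (Module.finBasisOfFinrankEq (ResidueField 𝒪) ρbar.V ρbar.finrank_eq) (ρbar.ρ σ))
      ((Module.finBasisOfFinrankEq (ResidueField 𝒪) ρbar.V ρbar.finrank_eq).equivFun x)
  rw [Matrix.toLinAlgEquiv'_apply]
  exact (LinearMap.toMatrix_mulVec_repr
    (Module.finBasisOfFinrankEq (ResidueField 𝒪) ρbar.V ρbar.finrank_eq)
    (Module.finBasisOfFinrankEq (ResidueField 𝒪) ρbar.V ρbar.finrank_eq) (ρbar.ρ σ) x).symm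

theorem RigPred.base (ρbar : ResidualGaloisRep (ResidueField 𝒪))
    {E : RigidData (resMatrix ρbar)} (h𝒟 : IsDeformationCondition 𝒪 𝒟)
    (hbar : 𝒟 (GaloisRepAdic.ofResidualGaloisRep ρbar)) :
    RigPred 𝒟 E (ResidueField 𝒪)
      (fun g => (rbtLift (resMatrix ρbar) g).map (algebraMap 𝒪 (ResidueField 𝒪))) := by
  have hfin := matFin_resMatrix ρbar
  have h11 : lin E.e11 (resMatrix ρbar) = Matrix.single 0 0 1 := E.h11
  have h12 : lin E.e12 (resMatrix ρbar) = Matrix.single 0 1 1 := E.h12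
  refine ⟨resMatrix ρbar, fun g => ?_, ⟨?_, ?_, ?_, ?_⟩, hfin.matCont, ?_⟩
  · ext i j
    show resMatrix ρbar g i j = algebraMap 𝒪 (ResidueField 𝒪) (rbtLift (resMatrix ρbar) g i j)
    rw [ResidueField.algebraMap_eq]
    exact (residue_rbtLift _ g i j).symm
  · intro σ i j c hc
    rw [ResidueField.algebraMap_eq, hc, sub_self]
    exact zero_mem _
  · rw [h11]; simp
  · rw [h11]; simp
  · rw [h12]; simp
  · exact h𝒟.of_isEquiv isArtinianTestAlgebra_residueField
      (ofResidual_isEquiv_ofMatrix ρbar _) hbar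

end Base

section Tangent

/-- a finiteness transfer through a quotient -/
theorem finite_of_quotient {α β : Type*} (s : Setoid α) (hfin : Finite (Quotient s))
    (F : β → α) (hF : ∀ b b', s.r (F b) (F b') → b = b') : Finite β :=
  Finite.of_injective (fun b => (Quotient.mk s (F b) : Quotient s))
    (fun b b' h => hF b b' (Quotient.exact h))

theorem RigPred.tangent_finite (ρbar : ResidualGaloisRep (ResidueField 𝒪))
    {E : RigidData (resMatrix ρbar)} (hfin : TangentFinite 𝒪 ρbar 𝒟)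
    (inst : Algebra 𝒪 (DualNumber (ResidueField 𝒪)))
    (hinst : ∀ a : 𝒪, @algebraMap 𝒪 (DualNumber (ResidueField 𝒪)) _ _ inst a =
      TrivSqZeroExt.inl (IsLocalRing.residue 𝒪 a)) :
    Set.Finite {r : GQ → Matrix (Fin 2) (Fin 2) (DualNumber (ResidueField 𝒪)) |
      @RigPred 𝒪 _ _ 𝒟 _ E (DualNumber (ResidueField 𝒪)) _ _ inst r} := by
  letI i1 : Algebra 𝒪 (DualNumber (ResidueField 𝒪)) :=
    ((algebraMap (ResidueField 𝒪) (DualNumber (ResidueField 𝒪))).comp
      (algebraMap 𝒪 (ResidueField 𝒪))).toAlgebra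
  have hi : inst = i1 := Algebra.algebra_ext _ _ (fun a => by rw [hinst a]; rfl)
  subst hi
  letI i2 : Algebra (ResidueField 𝒪) (ResidueField (DualNumber (ResidueField 𝒪))) :=
    ((IsLocalRing.residue (DualNumber (ResidueField 𝒪))).comp
      (algebraMap (ResidueField 𝒪) (DualNumber (ResidueField 𝒪)))).toAlgebra
  let S : Setoid {ρ : GaloisRepAdic (DualNumber (ResidueField 𝒪)) //
      𝒟 ρ ∧ ρ.residual.IsEquiv (ρbar.baseChange (ResidueField (DualNumber (ResidueField 𝒪))))} :=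
    ⟨fun ρ ρ' => ρ.1.IsEquiv ρ'.1, ⟨fun ρ => ⟨GaloisRepAdic.Equiv.refl ρ.1⟩,
        fun ⟨e⟩ => ⟨e.symm⟩, fun ⟨e⟩ ⟨e'⟩ => ⟨e.trans e'⟩⟩⟩
  have hfin' : Finite (Quotient S) := hfin
  haveI hloc : IsLocalHom (algebraMap 𝒪 (DualNumber (ResidueField 𝒪))) := by
    constructor
    intro a ha
    have h1 : IsUnit (TrivSqZeroExt.fst (algebraMap 𝒪 (DualNumber (ResidueField 𝒪)) a)) :=
      TrivSqZeroExt.isUnit_iff_isUnit_fst.mp ha
    have h2 : TrivSqZeroExt.fst (algebraMap 𝒪 (DualNumber (ResidueField 𝒪)) a) =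
        residue 𝒪 a := rfl
    rw [h2] at h1
    exact isUnit_of_map_unit (residue 𝒪) a h1
  have hψ : ResidueField.map (algebraMap 𝒪 (DualNumber (ResidueField 𝒪))) =
      (IsLocalRing.residue (DualNumber (ResidueField 𝒪))).comp
        (algebraMap (ResidueField 𝒪) (DualNumber (ResidueField 𝒪))) := by
    apply RingHom.ext
    intro x
    obtain ⟨a, rfl⟩ := residue_surjective x
    rw [ResidueField.map_residue]
    rfl
  have key : ∀ r : {r : GQ → Matrix (Fin 2) (Fin 2) (DualNumber (ResidueField 𝒪)) //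
      RigPred 𝒟 E (DualNumber (ResidueField 𝒪)) r},
      ∃ ρ : {ρ : GaloisRepAdic (DualNumber (ResidueField 𝒪)) //
        𝒟 ρ ∧ ρ.residual.IsEquiv
          (ρbar.baseChange (ResidueField (DualNumber (ResidueField 𝒪))))},
      ∃ (r' : GQ →* M2 (DualNumber (ResidueField 𝒪))) (hr : MatCont r'),
        (∀ g, r' g = r.1 g) ∧ IsRigid E r' ∧ ρ.1 = ofMatrix r' hr := by
    rintro ⟨r, r', hr', hrig, hcont, hD⟩
    have h0 := residual_isEquiv_of_liftsRes ρbar r' hcont hrig.lifts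
    rw [hψ] at h0
    exact ⟨⟨ofMatrix r' hcont, hD, h0⟩, r', hcont, hr', hrig, rfl⟩
  choose F r' hcont hr' hrig hF using key
  have : Finite {r : GQ → Matrix (Fin 2) (Fin 2) (DualNumber (ResidueField 𝒪)) //
      RigPred 𝒟 E (DualNumber (ResidueField 𝒪)) r} := by
    refine finite_of_quotient S hfin' F (fun b b' h => ?_)
    have h' : (F b).1.IsEquiv (F b').1 := h
    rw [hF b, hF b'] at h'
    have heq := IsRigid.eq_of_isEquiv E (hrig b) (hrig b') (hcont b) (hcont b') h'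
    apply Subtype.ext
    funext g
    rw [← hr' b g, ← hr' b' g, heq]
  exact Set.finite_coe_iff.mp this

end Tangent

/-- The rigid deformation problem attached to `(ρbar, 𝒟)` and Burnside data `E`. -/
def rigidProblem (ρbar : ResidualGaloisRep (ResidueField 𝒪))
    (𝒟 : ∀ ⦃A : Type⦄ [CommRing A] [IsLocalRing A] [Algebra 𝒪 A], GaloisRepAdic A → Prop)
    (E : RigidData (resMatrix ρbar)) (h𝒟 : IsDeformationCondition 𝒪 𝒟)
    (hbar : 𝒟 (GaloisRepAdic.ofResidualGaloisRep ρbar))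
    (hfin : TangentFinite 𝒪 ρbar 𝒟) : RigidProblem 𝒪 GQ where
  rbt := rbtLift (resMatrix ρbar)
  Rig := fun A _ _ _ r => RigPred 𝒟 E A r
  residual := fun _ h g i j => h.residual g i j
  map := fun hA hB φ _ h => h.map h𝒟 hA hB φ
  of_injective := fun hA hB φ hinj _ h => h.of_injective h𝒟 hA hB φ hinj
  of_fibreProduct := fun hA hB hC hP f g pA pB hcomm hinj hsurj _ h1 h2 =>
    RigPred.of_fibreProduct h𝒟 hA hB hC hP f g pA pB hcomm hinj hsurj h1 h2
  base := RigPred.base ρbar h𝒟 hbar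
  tangent_finite := fun inst hinst => RigPred.tangent_finite ρbar hfin inst hinst

end Univ

end

end Fermat.Agent.S53
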