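import Fermat.Agent.S53.Matrix

set_option autoImplicit false

namespace Fermat.Agent.S53

open IsLocalRing

noncomputable section

section Generic

variable {K : Type} [Field K]

/-- two residual representations whose matrices in some bases agree are equivalent -/
theorem resIsEquiv_of_toMatrix_eq (ρ₁ ρ₂ : ResidualGaloisRep K)
    (b₁ : Module.Basis (Fin 2) K ρ₁.V) (b₂ : Module.Basis (Fin 2) K ρ₂.V)
    (h : ∀ σ, LinearMap.toMatrix b₁ b₁ (ρ₁.ρ σ) = LinearMap.toMatrix b₂ b₂ (ρ₂.ρ σ)) :
    ρ₁.IsEquiv ρ₂ := by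
  refine ⟨{ toLinearEquiv := b₁.equiv b₂ (Equiv.refl _), map_apply := ?_ }⟩
  intro σ x
  have hlin : ((b₁.equiv b₂ (Equiv.refl _)).toLinearMap.comp (ρ₁.ρ σ)) =
      (ρ₂.ρ σ).comp (b₁.equiv b₂ (Equiv.refl _)).toLinearMap := by
    apply b₁.ext
    intro j
    simp only [LinearMap.comp_apply, LinearEquiv.coe_coe, Module.Basis.equiv_apply, Equiv.refl_apply]
    have h1 : ρ₁.ρ σ (b₁ j) = ∑ i, LinearMap.toMatrix b₁ b₁ (ρ₁.ρ σ) i j • b₁ i := by
      simp only [LinearMap.toMatrix_apply]
      exact (b₁.sum_repr _).symm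
    have h2 : ρ₂.ρ σ (b₂ j) = ∑ i, LinearMap.toMatrix b₂ b₂ (ρ₂.ρ σ) i j • b₂ i := by
      simp only [LinearMap.toMatrix_apply]
      exact (b₂.sum_repr _).symm
    rw [h1, h2, map_sum]
    refine Finset.sum_congr rfl fun i _ => ?_
    rw [map_smul, Module.Basis.equiv_apply, Equiv.refl_apply, h σ]
  exact LinearMap.congr_fun hlin x

/-- transporting a basis along an intertwiner does not change the matrices -/
theorem toMatrix_map_symm_eq {V W : Type} [AddCommGroup V] [Module K V] [AddCommGroup W]
    [Module K W] (e : V ≃ₗ[K] W) (b : Module.Basis (Fin 2) K W) (f : Module.End K V)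
    (g : Module.End K W) (h : ∀ x, e (f x) = g (e x)) :
    LinearMap.toMatrix (b.map e.symm) (b.map e.symm) f = LinearMap.toMatrix b b g := by
  ext i j
  rw [LinearMap.toMatrix_apply, LinearMap.toMatrix_apply, Module.Basis.map_apply,
    Module.Basis.map_repr, LinearEquiv.trans_apply, LinearEquiv.symm_symm, h,
    LinearEquiv.apply_symm_apply]

end Generic

section Residual

variable {𝒪 : Type} [CommRing 𝒪] [IsLocalRing 𝒪]

/-- the chosen basis of the residual representation -/
def resBasis (ρbar : ResidualGaloisRep (ResidueField 𝒪)) :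
    Module.Basis (Fin 2) (ResidueField 𝒪) ρbar.V :=
  Module.finBasisOfFinrankEq (ResidueField 𝒪) ρbar.V ρbar.finrank_eq

/-- matrix of the residual representation in the chosen basis -/
def resMatrix (ρbar : ResidualGaloisRep (ResidueField 𝒪)) : GQ →* M2 (ResidueField 𝒪) :=
  (LinearMap.toMatrixAlgEquiv (resBasis ρbar)).toAlgHom.toRingHom.toMonoidHom.comp ρbar.ρ

theorem resMatrix_apply (ρbar : ResidualGaloisRep (ResidueField 𝒪)) (σ : GQ) :
    resMatrix ρbar σ = LinearMap.toMatrix (resBasis ρbar) (resBasis ρbar) (ρbar.ρ σ) := rfl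

variable {A : Type} [CommRing A] [IsLocalRing A] [Algebra 𝒪 A]

/-- `r` reduces to `rb` modulo the maximal ideal (instance-free formulation) -/
def LiftsRes (rb : GQ →* M2 (ResidueField 𝒪)) (r : GQ →* M2 A) : Prop :=
  ∀ (σ : GQ) (i j : Fin 2) (c : 𝒪), residue 𝒪 c = rb σ i j →
    r σ i j - algebraMap 𝒪 A c ∈ maximalIdeal A

theorem liftsRes_iff [IsLocalHom (algebraMap 𝒪 A)] (rb : GQ →* M2 (ResidueField 𝒪))
    (r : GQ →* M2 A) :
    LiftsRes rb r ↔ ∀ (σ : GQ) (i j : Fin 2),
      residue A (r σ i j) = ResidueField.map (algebraMap 𝒪 A) (rb σ i j) := by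
  constructor
  · intro h σ i j
    obtain ⟨c, hc⟩ := residue_surjective (rb σ i j)
    have h1 := h σ i j c hc
    rw [← residue_eq_zero_iff, map_sub, sub_eq_zero] at h1
    rw [h1, ← hc, ResidueField.map_residue]
  · intro h σ i j c hc
    rw [← residue_eq_zero_iff, map_sub, sub_eq_zero, h σ i j, ← hc, ResidueField.map_residue]

/-- (B4) a lift of `resMatrix ρbar` has the right residual representation -/
theorem residual_isEquiv_of_liftsRes [IsLocalHom (algebraMap 𝒪 A)]
    (ρbar : ResidualGaloisRep (ResidueField 𝒪)) (r : GQ →* M2 A) (hr : MatCont r)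
    (h : LiftsRes (resMatrix ρbar) r) :
    (ofMatrix r hr).residual.IsEquiv
      (ρbar.baseChangeAlong (ResidueField.map (algebraMap 𝒪 A))) := by
  rw [liftsRes_iff] at h
  let _ : Algebra (ResidueField 𝒪) (ResidueField A) :=
    (ResidueField.map (algebraMap 𝒪 A)).toAlgebra
  refine resIsEquiv_of_toMatrix_eq _ _
    (Algebra.TensorProduct.basis (ResidueField A) (Pi.basisFun A (Fin 2)))
    (Algebra.TensorProduct.basis (ResidueField A) (resBasis ρbar)) ?_
  intro σ
  have h1 : LinearMap.toMatrix
      (Algebra.TensorProduct.basis (ResidueField A) (Pi.basisFun A (Fin 2)))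
      (Algebra.TensorProduct.basis (ResidueField A) (Pi.basisFun A (Fin 2)))
      ((Matrix.toLin' (r σ)).baseChange (ResidueField A)) =
      (r σ).map (algebraMap A (ResidueField A)) := by
    rw [LinearMap.toMatrix_baseChange, LinearMap.toMatrix_eq_toMatrix',
      LinearMap.toMatrix'_toLin']
  have h2 : LinearMap.toMatrix
      (Algebra.TensorProduct.basis (ResidueField A) (resBasis ρbar))
      (Algebra.TensorProduct.basis (ResidueField A) (resBasis ρbar))
      ((ρbar.ρ σ).baseChange (ResidueField A)) =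
      (resMatrix ρbar σ).map (algebraMap (ResidueField 𝒪) (ResidueField A)) := by
    rw [LinearMap.toMatrix_baseChange, resMatrix_apply]
  refine h1.trans (Eq.trans ?_ h2.symm)
  ext i j
  simp only [Matrix.map_apply]
  exact h σ i j

/-- (B5) a deformation has a matrix model lifting `resMatrix ρbar` on the nose -/
theorem exists_ofMatrix_liftsRes [IsLocalHom (algebraMap 𝒪 A)]
    (ρbar : ResidualGaloisRep (ResidueField 𝒪)) (ρ : GaloisRepAdic A)
    (h : ρ.residual.IsEquiv (ρbar.baseChangeAlong (ResidueField.map (algebraMap 𝒪 A)))) :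
    ∃ (r : GQ →* M2 A) (hr : MatCont r), ρ.IsEquiv (ofMatrix r hr) ∧
      LiftsRes (resMatrix ρbar) r := by
  obtain ⟨e⟩ := h
  let _ : Algebra (ResidueField 𝒪) (ResidueField A) :=
    (ResidueField.map (algebraMap 𝒪 A)).toAlgebra
  -- basis of the residual space of `ρbar ⊗ k_A`, transported to `k_A ⊗ ρ.V`
  let b₂ : Module.Basis (Fin 2) (ResidueField A)
      (ρbar.baseChangeAlong (ResidueField.map (algebraMap 𝒪 A))).V :=
    Algebra.TensorProduct.basis (ResidueField A) (resBasis ρbar)
  let w : Module.Basis (Fin 2) (ResidueField A) (TensorProduct A (ResidueField A) ρ.V) :=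
    b₂.map e.toLinearEquiv.symm
  -- lift the basis vectors
  have hsurj : ∀ y : TensorProduct A (ResidueField A) ρ.V,
      ∃ v : ρ.V, (1 : ResidueField A) ⊗ₜ[A] v = y := by
    intro y
    induction y using TensorProduct.induction_on with
    | zero => exact ⟨0, by simp⟩
    | tmul c v =>
      obtain ⟨a, rfl⟩ := residue_surjective c
      refine ⟨a • v, ?_⟩
      rw [TensorProduct.tmul_smul, TensorProduct.smul_tmul', Algebra.smul_def, mul_one]
      rfl
    | add x y hx hy =>
      obtain ⟨v₁, rfl⟩ := hx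
      obtain ⟨v₂, rfl⟩ := hy
      exact ⟨v₁ + v₂, by rw [TensorProduct.tmul_add]⟩
  choose v hv using fun i => hsurj (w i)
  have hbij : Function.Bijective (Finsupp.linearCombination A v) := by
    apply Module.IsLocalRing.linearCombination_bijective_of_flat
    have hcomp : (TensorProduct.mk A (ResidueField A) ρ.V 1 ∘ v) = w := by
      funext i
      exact hv i
    rw [hcomp]
    exact ⟨w.linearIndependent.finsuppLinearCombination_injective,
      by
        rw [← LinearMap.range_eq_top, Finsupp.range_linearCombination]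
        exact w.span_eq⟩
  let bv : Module.Basis (Fin 2) A ρ.V :=
    Module.Basis.mk (v := v) (linearIndependent_iff_injective_finsuppLinearCombination.mpr hbij.1)
      (by
        rw [← Finsupp.range_linearCombination, LinearMap.range_eq_top.mpr hbij.2])
  have hbv : ∀ i, bv i = v i := fun i => Module.Basis.mk_apply _ _ i
  refine ⟨matOfBasis ρ bv, matCont_matOfBasis ρ bv, isEquiv_ofMatrix_matOfBasis ρ bv, ?_⟩
  rw [liftsRes_iff]
  intro σ i j
  -- the base-changed basis is `w`
  have hw : Algebra.TensorProduct.basis (ResidueField A) bv = w := by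
    apply Module.Basis.eq_of_apply_eq
    intro i
    rw [Algebra.TensorProduct.basis_apply, hbv]
    exact hv i
  have h1 : LinearMap.toMatrix w w ((ρ.ρ σ).baseChange (ResidueField A)) =
      (matOfBasis ρ bv σ).map (algebraMap A (ResidueField A)) := by
    rw [← hw, LinearMap.toMatrix_baseChange, matOfBasis_apply]
  have h2 : LinearMap.toMatrix w w ((ρ.ρ σ).baseChange (ResidueField A)) =
      LinearMap.toMatrix b₂ b₂ ((ρbar.ρ σ).baseChange (ResidueField A)) :=
    toMatrix_map_symm_eq e.toLinearEquiv b₂ _ _ (e.map_apply σ)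
  have h3 : LinearMap.toMatrix b₂ b₂ ((ρbar.ρ σ).baseChange (ResidueField A)) =
      (resMatrix ρbar σ).map (algebraMap (ResidueField 𝒪) (ResidueField A)) := by
    have h3' : LinearMap.toMatrix
        (Algebra.TensorProduct.basis (ResidueField A) (resBasis ρbar))
        (Algebra.TensorProduct.basis (ResidueField A) (resBasis ρbar))
        ((ρbar.ρ σ).baseChange (ResidueField A)) =
        (resMatrix ρbar σ).map (algebraMap (ResidueField 𝒪) (ResidueField A)) := by
      rw [LinearMap.toMatrix_baseChange, resMatrix_apply]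
    exact h3'
  have h4 := congrFun (congrFun (h1.symm.trans (h2.trans h3)) i) j
  simp only [Matrix.map_apply] at h4
  exact h4

end Residual

end

end Fermat.Agent.S53
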