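import Fermat.Agent.S53.Burnside

set_option autoImplicit false

namespace Fermat.Agent.S53

open IsLocalRing Matrix

noncomputable section

section LocalHelpers

variable {A : Type} [CommRing A] [IsLocalRing A]

theorem map_mem_maximalIdeal_of_isLocalHom {B : Type} [CommRing B] [IsLocalRing B] (φ : A →+* B)
    (hφ : IsLocalHom φ) {x : A} (hx : x ∈ maximalIdeal A) : φ x ∈ maximalIdeal B :=
  (mem_maximalIdeal _).mpr fun hu => (mem_maximalIdeal _).mp hx (hφ.map_nonunit _ hu)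

theorem mem_maximalIdeal_of_map_mem {B : Type} [CommRing B] [IsLocalRing B] (φ : A →+* B)
    {x : A} (hx : φ x ∈ maximalIdeal B) : x ∈ maximalIdeal A :=
  (mem_maximalIdeal _).mpr fun hu => (mem_maximalIdeal _).mp hx (hu.map φ)

theorem isUnit_sub_of_mem {x y : A} (hx : x - 1 ∈ maximalIdeal A) (hy : y ∈ maximalIdeal A) :
    IsUnit (x - y) := by
  by_contra h
  have h1 : x - y ∈ maximalIdeal A := (mem_maximalIdeal _).mpr h
  have h2 : (1 : A) ∈ maximalIdeal A := by
    have := Ideal.add_mem _ (Ideal.sub_mem _ h1 hx) hy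
    have he : x - y - (x - 1) + y = 1 := by ring
    rwa [he] at this
  exact (Ideal.ne_top_iff_one _).mp (maximalIdeal.isMaximal A).ne_top h2

theorem isUnit_of_sub_one_mem {x : A} (hx : x - 1 ∈ maximalIdeal A) : IsUnit x := by
  have := isUnit_sub_of_mem hx (Ideal.zero_mem _)
  rwa [sub_zero] at this

/-- diagonal units -/
def diagU (p q : Aˣ) : (M2 A)ˣ where
  val := !![(p : A), 0; 0, (q : A)]
  inv := !![((p⁻¹ : Aˣ) : A), 0; 0, ((q⁻¹ : Aˣ) : A)]
  val_inv := by
    ext i j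
    fin_cases i <;> fin_cases j <;> simp [Matrix.mul_apply, Fin.sum_univ_two]
  inv_val := by
    ext i j
    fin_cases i <;> fin_cases j <;> simp [Matrix.mul_apply, Fin.sum_univ_two]

theorem diagU_conj_apply (p q : Aˣ) (N : M2 A) :
    ((diagU p q : (M2 A)ˣ) : M2 A) * N * (((diagU p q)⁻¹ : (M2 A)ˣ) : M2 A) =
      !![N 0 0, (p : A) * N 0 1 * ((q⁻¹ : Aˣ) : A);
         (q : A) * N 1 0 * ((p⁻¹ : Aˣ) : A), N 1 1] := by
  have hv : ((diagU p q : (M2 A)ˣ) : M2 A) = !![(p : A), 0; 0, (q : A)] := rfl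
  have hi : (((diagU p q)⁻¹ : (M2 A)ˣ) : M2 A) =
      !![((p⁻¹ : Aˣ) : A), 0; 0, ((q⁻¹ : Aˣ) : A)] := rfl
  rw [hv, hi]
  ext i j
  fin_cases i <;> fin_cases j <;>
    simp [Matrix.mul_apply, Fin.sum_univ_two, Matrix.vecMul, dotProduct, mul_comm]

/-- Hensel diagonalisation of a matrix congruent to `E₁₁` -/
theorem exists_diagonalising [IsAdicComplete (maximalIdeal A) A] (X : M2 A)
    (h00 : X 0 0 - 1 ∈ maximalIdeal A) (h01 : X 0 1 ∈ maximalIdeal A)
    (h10 : X 1 0 ∈ maximalIdeal A) (h11 : X 1 1 ∈ maximalIdeal A) :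
    ∃ S : (M2 A)ˣ, (∀ i j, ((S : M2 A) - 1) i j ∈ maximalIdeal A) ∧
      (((S⁻¹ : (M2 A)ˣ) : M2 A) * X * (S : M2 A)) 0 1 = 0 ∧
      (((S⁻¹ : (M2 A)ˣ) : M2 A) * X * (S : M2 A)) 1 0 = 0 := by
  have hH : HenselianRing A (maximalIdeal A) := IsAdicComplete.henselianRing A (maximalIdeal A)
  let f : Polynomial A := Polynomial.X ^ 2 + (Polynomial.C (-(X 0 0 + X 1 1)) * Polynomial.X +
    Polynomial.C (X 0 0 * X 1 1 - X 0 1 * X 1 0))
  have hf : f.Monic := Polynomial.monic_X_pow_add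
    (lt_of_le_of_lt (Polynomial.degree_linear_le) (by norm_num))
  have hev : f.eval (X 0 0) ∈ maximalIdeal A := by
    have he : f.eval (X 0 0) = -(X 0 1 * X 1 0) := by
      simp only [f, Polynomial.eval_add, Polynomial.eval_pow, Polynomial.eval_X,
        Polynomial.eval_mul, Polynomial.eval_C]
      ring
    rw [he]
    exact neg_mem (Ideal.mul_mem_right _ _ h01)
  have hder : IsUnit (Ideal.Quotient.mk (maximalIdeal A) (f.derivative.eval (X 0 0))) := by
    have he : f.derivative.eval (X 0 0) = X 0 0 - X 1 1 := by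
      simp only [f, Polynomial.derivative_add, Polynomial.derivative_X_pow,
        Polynomial.derivative_mul, Polynomial.derivative_C, Polynomial.derivative_X,
        Polynomial.eval_add, Polynomial.eval_pow, Polynomial.eval_X,
        Polynomial.eval_mul, Polynomial.eval_C, Polynomial.eval_zero, Polynomial.eval_one]
      simp
      ring
    rw [he]
    exact (isUnit_sub_of_mem h00 h11).map _
  obtain ⟨l, hl, hl'⟩ := hH.is_henselian f hf (X 0 0) hev hder
  have hroot : l ^ 2 + (-(X 0 0 + X 1 1) * l + (X 0 0 * X 1 1 - X 0 1 * X 1 0)) = 0 := by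
    have := hl
    simp only [f, Polynomial.IsRoot, Polynomial.eval_add, Polynomial.eval_pow,
      Polynomial.eval_X, Polynomial.eval_mul, Polynomial.eval_C] at this
    exact this
  have hl1 : l - X 1 1 - 1 ∈ maximalIdeal A := by
    have := Ideal.sub_mem _ (Ideal.add_mem _ hl' h00) h11
    have he : l - X 0 0 + (X 0 0 - 1) - X 1 1 = l - X 1 1 - 1 := by ring
    rwa [he] at this
  let S₀ : M2 A := !![l - X 1 1, -X 0 1; X 1 0, l - X 1 1]
  have hdet : IsUnit S₀.det := by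
    apply isUnit_of_sub_one_mem
    have he : S₀.det - 1 = (l - X 1 1 - 1) * (l - X 1 1 + 1) + X 0 1 * X 1 0 := by
      simp only [S₀, Matrix.det_fin_two_of]
      ring
    rw [he]
    exact Ideal.add_mem _ (Ideal.mul_mem_right _ _ hl1) (Ideal.mul_mem_right _ _ h01)
  have hS₀ : IsUnit S₀ := (Matrix.isUnit_iff_isUnit_det S₀).mpr hdet
  have hXS : X * S₀ = S₀ * !![l, 0; 0, X 0 0 + X 1 1 - l] := by
    ext i j
    fin_cases i <;> fin_cases j
    · simp only [S₀, Matrix.mul_apply, Fin.sum_univ_two]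
      simp
      linear_combination -hroot
    · simp only [S₀, Matrix.mul_apply, Fin.sum_univ_two]
      simp
      ring
    · simp only [S₀, Matrix.mul_apply, Fin.sum_univ_two]
      simp
      ring
    · simp only [S₀, Matrix.mul_apply, Fin.sum_univ_two]
      simp
      linear_combination hroot
  refine ⟨hS₀.unit, ?_, ?_, ?_⟩
  · intro i j
    rw [IsUnit.unit_spec]
    fin_cases i <;> fin_cases j
    · simpa [S₀] using hl1
    · simpa [S₀] using h01
    · simpa [S₀] using h10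
    · simpa [S₀] using hl1
  · rw [IsUnit.unit_spec, mul_assoc, hXS, ← mul_assoc]
    have : ((hS₀.unit⁻¹ : (M2 A)ˣ) : M2 A) * S₀ = 1 := hS₀.val_inv_mul
    rw [this, one_mul]
    simp
  · rw [IsUnit.unit_spec, mul_assoc, hXS, ← mul_assoc]
    have : ((hS₀.unit⁻¹ : (M2 A)ˣ) : M2 A) * S₀ = 1 := hS₀.val_inv_mul
    rw [this, one_mul]
    simp

theorem conjRep_mul (M N : (M2 A)ˣ) (r : GQ →* M2 A) :
    conjRep (M * N) r = conjRep M (conjRep N r) := by
  ext σ : 1
  rw [conjRep_apply, conjRep_apply, conjRep_apply, _root_.mul_inv_rev, Units.val_mul, Units.val_mul]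
  simp only [mul_assoc]

theorem inv_sub_one_apply_mem (S : (M2 A)ˣ)
    (hS : ∀ i j, ((S : M2 A) - 1) i j ∈ maximalIdeal A) (i j : Fin 2) :
    (((S⁻¹ : (M2 A)ˣ) : M2 A) - 1) i j ∈ maximalIdeal A := by
  have he : ((S⁻¹ : (M2 A)ˣ) : M2 A) - 1 =
      ((S⁻¹ : (M2 A)ˣ) : M2 A) * (-((S : M2 A) - 1)) * 1 := by
    rw [mul_one, mul_neg, mul_sub, Units.inv_mul, mul_one, neg_sub]
  rw [he]
  exact mul_mul_apply_mem _ _ _ _ (fun i j => by
    rw [Matrix.neg_apply]
    exact neg_mem (hS i j)) i j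

end LocalHelpers

section Rigid

variable {𝒪 : Type} [CommRing 𝒪] [IsLocalRing 𝒪]
variable {A : Type} [CommRing A] [IsLocalRing A] [Algebra 𝒪 A]

/-- evaluate a group-algebra element on a matrix representation -/
def lin (e : GQ →₀ 𝒪) (r : GQ →* M2 A) : M2 A := e.sum fun g c => algebraMap 𝒪 A c • r g

theorem lin_apply (e : GQ →₀ 𝒪) (r : GQ →* M2 A) (i j : Fin 2) :
    lin e r i j = e.sum fun g c => algebraMap 𝒪 A c * r g i j := by
  unfold lin
  rw [Finsupp.sum, Finsupp.sum, Matrix.sum_apply]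
  rfl

/-- rigid representations: lift `rb`, `r[e11]` diagonal, `r[e12]₀₁ = 1` -/
structure IsRigid {rb : GQ →* M2 (ResidueField 𝒪)} (E : RigidData rb) (r : GQ →* M2 A) :
    Prop where
  lifts : LiftsRes rb r
  diag01 : lin E.e11 r 0 1 = 0
  diag10 : lin E.e11 r 1 0 = 0
  one01 : lin E.e12 r 0 1 = 1

variable {B : Type} [CommRing B] [IsLocalRing B] [Algebra 𝒪 B]

theorem lin_mapRep (e : GQ →₀ 𝒪) (r : GQ →* M2 A) (φ : A →ₐ[𝒪] B) (i j : Fin 2) :
    lin e (mapRep (φ : A →+* B) r) i j = φ (lin e r i j) := by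
  rw [lin_apply, lin_apply]
  simp only [Finsupp.sum, map_sum, map_mul, mapRep_apply, AlgHom.commutes, RingHom.coe_coe]

theorem lin_conjRep (e : GQ →₀ 𝒪) (r : GQ →* M2 A) (M : (M2 A)ˣ) :
    lin e (conjRep M r) = (M : M2 A) * lin e r * ((M⁻¹ : (M2 A)ˣ) : M2 A) := by
  simp only [lin, Finsupp.sum, conjRep_apply, Finset.mul_sum, Finset.sum_mul, Matrix.mul_smul,
    Matrix.smul_mul]

variable {rb : GQ →* M2 (ResidueField 𝒪)}

theorem LiftsRes.isLocalHom {r : GQ →* M2 A} (h : LiftsRes rb r) :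
    IsLocalHom (algebraMap 𝒪 A) := by
  have hm : ∀ x ∈ maximalIdeal 𝒪, algebraMap 𝒪 A x ∈ maximalIdeal A := by
    intro x hx
    obtain ⟨c, hc⟩ := residue_surjective (rb 1 0 0)
    have h1 := h 1 0 0 c hc
    have h2 := h 1 0 0 (c + x) (by rw [map_add, hc, (residue_eq_zero_iff x).mpr hx, add_zero])
    have := Ideal.sub_mem _ h1 h2
    rwa [map_add, sub_sub_sub_cancel_left, add_sub_cancel_left] at this
  constructor
  intro a ha
  by_contra hna
  exact (mem_maximalIdeal _).mp (hm a ((mem_maximalIdeal a).mpr hna)) ha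

theorem LiftsRes.lin_sub_mem {r : GQ →* M2 A} (h : LiftsRes rb r)
    (e : GQ →₀ 𝒪) (i j : Fin 2) (t : 𝒪)
    (ht : residue 𝒪 t = (e.sum fun g c => residue 𝒪 c • rb g) i j) :
    lin e r i j - algebraMap 𝒪 A t ∈ maximalIdeal A := by
  have hloc := h.isLocalHom
  let s : ResidueField 𝒪 → 𝒪 := Function.surjInv residue_surjective
  have hs : ∀ c, residue 𝒪 (s c) = c := Function.surjInv_eq residue_surjective
  let t' : 𝒪 := e.sum fun g c => c * s (rb g i j)
  have h1 : lin e r i j - algebraMap 𝒪 A t' ∈ maximalIdeal A := by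
    rw [lin_apply]
    simp only [t', Finsupp.sum, map_sum, map_mul, ← Finset.sum_sub_distrib, ← mul_sub]
    exact Ideal.sum_mem _ fun g _ => Ideal.mul_mem_left _ _ (h g i j _ (hs _))
  have h2 : residue 𝒪 t' = residue 𝒪 t := by
    rw [ht]
    simp only [t', Finsupp.sum, map_sum, map_mul, hs, Matrix.sum_apply, Matrix.smul_apply,
      smul_eq_mul]
  have h3 : algebraMap 𝒪 A (t' - t) ∈ maximalIdeal A :=
    map_mem_maximalIdeal_of_isLocalHom _ hloc
      (by rw [← residue_eq_zero_iff, map_sub, h2, sub_self])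
  have := Ideal.add_mem _ h1 h3
  rwa [map_sub, sub_add_sub_cancel] at this

theorem LiftsRes.conj {r : GQ →* M2 A} (h : LiftsRes rb r) (M : (M2 A)ˣ)
    (hM : ∀ i j, ((M : M2 A) - 1) i j ∈ maximalIdeal A) : LiftsRes rb (conjRep M r) := by
  intro σ i j c hc
  have h1 := h σ i j c hc
  have he : conjRep M r σ - r σ =
      1 * ((M : M2 A) - 1) * (r σ * ((M⁻¹ : (M2 A)ˣ) : M2 A)) -
        (r σ * ((M⁻¹ : (M2 A)ˣ) : M2 A)) * ((M : M2 A) - 1) * 1 := by
    rw [conjRep_apply]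
    simp only [one_mul, mul_one, sub_mul, mul_sub, mul_assoc, Units.inv_mul]
    abel
  have h2 : (conjRep M r σ - r σ) i j ∈ maximalIdeal A := by
    rw [he, Matrix.sub_apply]
    exact Ideal.sub_mem _ (mul_mul_apply_mem _ _ _ _ hM i j) (mul_mul_apply_mem _ _ _ _ hM i j)
  have := Ideal.add_mem _ h2 h1
  rw [Matrix.sub_apply] at this
  rwa [sub_add_sub_cancel] at this

variable (E : RigidData rb)

theorem IsRigid.map {r : GQ →* M2 A} (h : IsRigid E r) (φ : A →ₐ[𝒪] B)
    (hφ : IsLocalHom (φ : A →+* B)) : IsRigid E (mapRep (φ : A →+* B) r) := by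
  refine ⟨?_, ?_, ?_, ?_⟩
  · intro σ i j c hc
    have h1 := h.lifts σ i j c hc
    have h2 : mapRep (φ : A →+* B) r σ i j - algebraMap 𝒪 B c =
        (φ : A →+* B) (r σ i j - algebraMap 𝒪 A c) := by
      rw [map_sub, mapRep_apply, RingHom.coe_coe, AlgHom.commutes]
    rw [h2]
    exact map_mem_maximalIdeal_of_isLocalHom _ hφ h1
  · rw [lin_mapRep, h.diag01, map_zero]
  · rw [lin_mapRep, h.diag10, map_zero]
  · rw [lin_mapRep, h.one01, map_one]

theorem LiftsRes.of_map {r : GQ →* M2 A} (φ : A →ₐ[𝒪] B)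
    (h : LiftsRes rb (mapRep (φ : A →+* B) r)) : LiftsRes rb r := by
  intro σ i j c hc
  have h1 := h σ i j c hc
  have h2 : mapRep (φ : A →+* B) r σ i j - algebraMap 𝒪 B c =
      (φ : A →+* B) (r σ i j - algebraMap 𝒪 A c) := by
    rw [map_sub, mapRep_apply, RingHom.coe_coe, AlgHom.commutes]
  rw [h2] at h1
  exact mem_maximalIdeal_of_map_mem _ h1

theorem IsRigid.of_map_injective {r : GQ →* M2 A} (φ : A →ₐ[𝒪] B)
    (hinj : Function.Injective φ)
    (h : IsRigid E (mapRep (φ : A →+* B) r)) : IsRigid E r := by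
  refine ⟨h.lifts.of_map φ, ?_, ?_, ?_⟩
  · apply hinj
    rw [← lin_mapRep, h.diag01, map_zero]
  · apply hinj
    rw [← lin_mapRep, h.diag10, map_zero]
  · apply hinj
    rw [← lin_mapRep, h.one01, map_one]

/-- (UNIQ) two rigid representations that are conjugate are equal -/
theorem IsRigid.eq_of_conj {r r' : GQ →* M2 A} (h : IsRigid E r) (h' : IsRigid E r')
    (M : (M2 A)ˣ) (hM : r' = conjRep M r) : r' = r := by
  have hX : lin E.e11 r' * (M : M2 A) = (M : M2 A) * lin E.e11 r := by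
    rw [hM, lin_conjRep, mul_assoc, Units.inv_mul, mul_one]
  have hY : lin E.e12 r' * (M : M2 A) = (M : M2 A) * lin E.e12 r := by
    rw [hM, lin_conjRep, mul_assoc, Units.inv_mul, mul_one]
  have ha : lin E.e11 r 0 0 - 1 ∈ maximalIdeal A := by
    have := h.lifts.lin_sub_mem E.e11 0 0 1 (by rw [E.h11]; simp)
    rwa [map_one] at this
  have hd : lin E.e11 r 1 1 ∈ maximalIdeal A := by
    have := h.lifts.lin_sub_mem E.e11 1 1 0 (by rw [E.h11]; simp)
    rwa [map_zero, sub_zero] at this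
  have ha' : lin E.e11 r' 0 0 - 1 ∈ maximalIdeal A := by
    have := h'.lifts.lin_sub_mem E.e11 0 0 1 (by rw [E.h11]; simp)
    rwa [map_one] at this
  have hd' : lin E.e11 r' 1 1 ∈ maximalIdeal A := by
    have := h'.lifts.lin_sub_mem E.e11 1 1 0 (by rw [E.h11]; simp)
    rwa [map_zero, sub_zero] at this
  have e01 := congrFun (congrFun hX 0) 1
  have e10 := congrFun (congrFun hX 1) 0
  have f01 := congrFun (congrFun hY 0) 1
  simp only [Matrix.mul_apply, Fin.sum_univ_two] at e01 e10 f01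
  rw [h.diag01, h'.diag01] at e01
  rw [h.diag10, h'.diag10] at e10
  have hM01 : (M : M2 A) 0 1 = 0 := by
    have h1 : (M : M2 A) 0 1 * (lin E.e11 r' 0 0 - lin E.e11 r 1 1) = 0 := by
      linear_combination e01
    exact ((isUnit_sub_of_mem ha' hd).mul_left_eq_zero).mp h1
  have hM10 : (M : M2 A) 1 0 = 0 := by
    have h1 : (M : M2 A) 1 0 * (lin E.e11 r 0 0 - lin E.e11 r' 1 1) = 0 := by
      linear_combination -e10
    exact ((isUnit_sub_of_mem ha hd').mul_left_eq_zero).mp h1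
  have hM11 : (M : M2 A) 1 1 = (M : M2 A) 0 0 := by
    rw [h.one01, h'.one01, hM01] at f01
    linear_combination f01
  have hMs : (M : M2 A) = (M : M2 A) 0 0 • (1 : M2 A) := by
    ext i j
    fin_cases i <;> fin_cases j <;> simp [hM01, hM10, hM11]
  rw [hM]
  ext σ : 1
  rw [conjRep_apply]
  have hcomm : (M : M2 A) * r σ = r σ * (M : M2 A) := by
    rw [hMs, Matrix.smul_mul, Matrix.mul_smul, one_mul, mul_one]
  rw [hcomm, mul_assoc, Units.mul_inv, mul_one]

/-- (UNIQ), packaged -/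
theorem IsRigid.eq_of_isEquiv {r r' : GQ →* M2 A} (h : IsRigid E r) (h' : IsRigid E r')
    (hr : MatCont r) (hr' : MatCont r') (he : (ofMatrix r hr).IsEquiv (ofMatrix r' hr')) :
    r' = r := by
  obtain ⟨M, hM⟩ := (ofMatrix_isEquiv_iff r r' hr hr').mp he
  exact h.eq_of_conj E h' M hM

/-- (EXIST) over a complete local ring every lift of `rb` is conjugate to a rigid one -/
theorem exists_isRigid_conj [IsAdicComplete (maximalIdeal A) A]
    {r : GQ →* M2 A} (h : LiftsRes rb r) : ∃ M : (M2 A)ˣ, IsRigid E (conjRep M r) := by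
  have h00 : lin E.e11 r 0 0 - 1 ∈ maximalIdeal A := by
    have := h.lin_sub_mem E.e11 0 0 1 (by rw [E.h11]; simp)
    rwa [map_one] at this
  have h01 : lin E.e11 r 0 1 ∈ maximalIdeal A := by
    have := h.lin_sub_mem E.e11 0 1 0 (by rw [E.h11]; simp)
    rwa [map_zero, sub_zero] at this
  have h10 : lin E.e11 r 1 0 ∈ maximalIdeal A := by
    have := h.lin_sub_mem E.e11 1 0 0 (by rw [E.h11]; simp)
    rwa [map_zero, sub_zero] at this
  have h11 : lin E.e11 r 1 1 ∈ maximalIdeal A := by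
    have := h.lin_sub_mem E.e11 1 1 0 (by rw [E.h11]; simp)
    rwa [map_zero, sub_zero] at this
  obtain ⟨S, hS, hS01, hS10⟩ := exists_diagonalising (lin E.e11 r) h00 h01 h10 h11
  have hl1 : LiftsRes rb (conjRep S⁻¹ r) := h.conj S⁻¹ (inv_sub_one_apply_mem S hS)
  have hX1 : lin E.e11 (conjRep S⁻¹ r) =
      ((S⁻¹ : (M2 A)ˣ) : M2 A) * lin E.e11 r * (S : M2 A) := by
    rw [lin_conjRep, inv_inv]
  have hy : lin E.e12 (conjRep S⁻¹ r) 0 1 - 1 ∈ maximalIdeal A := by
    have := hl1.lin_sub_mem E.e12 0 1 1 (by rw [E.h12]; simp)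
    rwa [map_one] at this
  have hyu : IsUnit (lin E.e12 (conjRep S⁻¹ r) 0 1) := isUnit_of_sub_one_mem hy
  have hDm : ∀ i j, (((diagU hyu.unit⁻¹ 1 : (M2 A)ˣ) : M2 A) - 1) i j ∈ maximalIdeal A := by
    intro i j
    have hv : ((diagU hyu.unit⁻¹ 1 : (M2 A)ˣ) : M2 A) =
        !![((hyu.unit⁻¹ : Aˣ) : A), 0; 0, ((1 : Aˣ) : A)] := rfl
    have hinv : ((hyu.unit⁻¹ : Aˣ) : A) - 1 ∈ maximalIdeal A := by
      have he : ((hyu.unit⁻¹ : Aˣ) : A) - 1 =
          -(((hyu.unit⁻¹ : Aˣ) : A) * (lin E.e12 (conjRep S⁻¹ r) 0 1 - 1)) := by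
        have hu : ((hyu.unit⁻¹ : Aˣ) : A) * lin E.e12 (conjRep S⁻¹ r) 0 1 = 1 :=
          hyu.val_inv_mul
        rw [mul_sub, hu, mul_one, neg_sub]
      rw [he]
      exact neg_mem (Ideal.mul_mem_left _ _ hy)
    rw [hv]
    fin_cases i <;> fin_cases j
    · simpa using hinv
    · simp
    · simp
    · simp
  refine ⟨diagU hyu.unit⁻¹ 1 * S⁻¹, ?_⟩
  rw [conjRep_mul]
  refine ⟨hl1.conj _ hDm, ?_, ?_, ?_⟩
  · rw [lin_conjRep, diagU_conj_apply, hX1, hS01]
    simp
  · rw [lin_conjRep, diagU_conj_apply, hX1, hS10]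
    simp
  · rw [lin_conjRep, diagU_conj_apply]
    simp

/-- (EXIST), packaged: every deformation is equivalent to `ofMatrix` of a rigid
representation -/
theorem exists_rigid_ofMatrix [IsAdicComplete (maximalIdeal A) A] [IsLocalHom (algebraMap 𝒪 A)]
    (ρbar : ResidualGaloisRep (ResidueField 𝒪)) (E : RigidData (resMatrix ρbar))
    (ρ : GaloisRepAdic A)
    (h : ρ.residual.IsEquiv (ρbar.baseChangeAlong (ResidueField.map (algebraMap 𝒪 A)))) :
    ∃ (r : GQ →* M2 A) (hr : MatCont r), IsRigid E r ∧ ρ.IsEquiv (ofMatrix r hr) := by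
  obtain ⟨r, hr, he, hl⟩ := exists_ofMatrix_liftsRes ρbar ρ h
  obtain ⟨M, hM⟩ := exists_isRigid_conj E hl
  refine ⟨conjRep M r, hr.conj M, hM, ?_⟩
  obtain ⟨e1⟩ := he
  obtain ⟨e2⟩ := (ofMatrix_isEquiv_iff r (conjRep M r) hr (hr.conj M)).mpr ⟨M, rfl⟩
  exact ⟨e1.trans e2⟩

end Rigid

end

end Fermat.Agent.S53
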